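import Fermat.Agent.Lib.RR.Ord

/-!
# S18 endgame (helper725), part 1: abstract constant reductions of function fields

`Reduction K F k Fk`: a valuation subring `R` of `F` with residue field `Fk` (via `ρ`), whose value
group is that of `K ∩ R`, together with a map `r` on places such that
`r_* div(y) = div(ρ y)` for every unit `y` of `R`.
-/

set_option autoImplicit false

noncomputable section

open AlgebraicCurve

namespace Fermat.Agent.S18.H725

open Fermat.Agent.Lib.RR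

/-- An abstract "constant reduction" of the function field `F/K` to `Fk/k`. -/
structure Reduction (K F k Fk : Type*) [Field K] [Field F] [Algebra K F] [Field k] [Field Fk]
    [Algebra k Fk] where
  /-- the valuation ring of the constant reduction -/
  R : ValuationSubring F
  /-- the residue map -/
  ρ : R →+* Fk
  ρ_surj : Function.Surjective ρ
  /-- the kernel of `ρ` is the maximal ideal -/
  isUnit_of_ρ_ne_zero : ∀ y : R, ρ y ≠ 0 → IsUnit y
  /-- constants reduce to constants -/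
  const : ∀ (c : K) (hc : algebraMap K F c ∈ R), ∃ c' : k, ρ ⟨algebraMap K F c, hc⟩ = algebraMap k Fk c'
  /-- the value group of `R` is that of `K ∩ R` -/
  scale : ∀ f : F, f ≠ 0 → ∃ c : K, c ≠ 0 ∧ ∃ h : algebraMap K F c * f ∈ R,
    ρ ⟨algebraMap K F c * f, h⟩ ≠ 0
  /-- the specialisation map on places -/
  r : Place K F → Place k Fk
  /-- compatibility of divisors of units with reduction -/
  red : ∀ y : R, ρ y ≠ 0 → ∀ D : Divisor K F, (∀ P, D P = P.ord (y : F)) →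
    ∀ Q, Finsupp.mapDomain r D Q = Q.ord (ρ y)

variable {K F k Fk : Type*} [Field K] [Field F] [Algebra K F] [Field k] [Field Fk] [Algebra k Fk]

/-- Evaluation of `mapDomain` at a point as a filtered sum. -/
theorem mapDomain_apply_eq_sum {α β : Type*} [DecidableEq β] (r : α → β) (D : α →₀ ℤ) (Q : β) :
    Finsupp.mapDomain r D Q = ∑ P ∈ D.support, if r P = Q then D P else 0 := by
  rw [Finsupp.mapDomain, Finsupp.sum, Finsupp.finsetSum_apply]
  refine Finset.sum_congr rfl fun P _ => ?_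
  rw [Finsupp.single_apply]

theorem mapDomain_nonneg {α β : Type*} (r : α → β) (D : α →₀ ℤ) {Q : β}
    (hD : ∀ P, r P = Q → 0 ≤ D P) : 0 ≤ Finsupp.mapDomain r D Q := by
  classical
  rw [mapDomain_apply_eq_sum]
  refine Finset.sum_nonneg fun P _ => ?_
  split_ifs with h
  · exact hD P h
  · exact le_refl _

theorem mapDomain_pos {α β : Type*} (r : α → β) (D : α →₀ ℤ) {Q : β}
    (hD : ∀ P, r P = Q → 0 ≤ D P) {P₀ : α} (hP₀ : r P₀ = Q) (h₀ : 0 < D P₀) :
    0 < Finsupp.mapDomain r D Q := by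
  classical
  rw [mapDomain_apply_eq_sum]
  have hnn : ∀ P' ∈ D.support, (0 : ℤ) ≤ if r P' = Q then D P' else 0 := fun P' _ => by
    split_ifs with h
    · exact hD P' h
    · exact le_refl _
  have hmem : P₀ ∈ D.support := Finsupp.mem_support_iff.mpr (ne_of_gt h₀)
  have h1 := Finset.single_le_sum hnn hmem
  rw [if_pos hP₀] at h1
  omega

/-- If a divisor which is effective over `Q` has `r_* E (Q) = 0` then no point of `E` lies
over `Q`. -/
theorem eq_zero_of_mapDomain_eq_zero {α β : Type*} (r : α → β) (D : α →₀ ℤ) {Q : β}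
    (hD : ∀ P, r P = Q → 0 ≤ D P)
    (h : Finsupp.mapDomain r D Q = 0) {P : α} (hP : r P = Q) : D P = 0 := by
  by_contra hne
  have := mapDomain_pos r D hD hP (lt_of_le_of_ne (hD P hP) (Ne.symm hne))
  omega

/-- If a divisor which is effective over `Q` has `r_* E (Q) = 1` and a point `P₀` over `Q`
in its support, then `P₀` has multiplicity one and is the only point of `E` over `Q`. -/
theorem unique_of_mapDomain_eq_one {α β : Type*} (r : α → β) (D : α →₀ ℤ) {Q : β}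
    (hD : ∀ P, r P = Q → 0 ≤ D P) (h : Finsupp.mapDomain r D Q = 1)
    {P₀ : α} (hP₀ : r P₀ = Q) (h₀ : 0 < D P₀) :
    D P₀ = 1 ∧ ∀ P, r P = Q → P ≠ P₀ → D P = 0 := by
  classical
  rw [mapDomain_apply_eq_sum] at h
  have hnn : ∀ P' ∈ D.support, (0 : ℤ) ≤ if r P' = Q then D P' else 0 := fun P' _ => by
    split_ifs with h
    · exact hD P' h
    · exact le_refl _
  have hmem₀ : P₀ ∈ D.support := Finsupp.mem_support_iff.mpr (ne_of_gt h₀)
  have hsplit := Finset.add_sum_erase D.support (fun P => if r P = Q then D P else 0) hmem₀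
  simp only [if_pos hP₀] at hsplit
  have hrest : 0 ≤ ∑ P ∈ D.support.erase P₀, (if r P = Q then D P else 0) :=
    Finset.sum_nonneg fun P hP => hnn P (Finset.mem_of_mem_erase hP)
  have h1 : D P₀ = 1 := by omega
  have h0 : ∑ P ∈ D.support.erase P₀, (if r P = Q then D P else 0) = 0 := by omega
  refine ⟨h1, fun P hP hne => ?_⟩
  by_contra hDP
  have hmem : P ∈ D.support.erase P₀ :=
    Finset.mem_erase.mpr ⟨hne, Finsupp.mem_support_iff.mpr hDP⟩
  have := (Finset.sum_eq_zero_iff_of_nonneg (fun P' hP' =>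
    hnn P' (Finset.mem_of_mem_erase hP'))).mp h0 P hmem
  rw [if_pos hP] at this
  exact hDP this

/-- If a divisor which is effective over `Q` has `r_* E (Q) = 1` then exactly one point of `E`
lies over `Q`, with multiplicity one. -/
theorem exists_unique_of_mapDomain_eq_one {α β : Type*} (r : α → β) (D : α →₀ ℤ) {Q : β}
    (hD : ∀ P, r P = Q → 0 ≤ D P) (h : Finsupp.mapDomain r D Q = 1) :
    ∃ P₁, r P₁ = Q ∧ D P₁ = 1 ∧ ∀ P, r P = Q → P ≠ P₁ → D P = 0 := by
  classical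
  have hex : ∃ P₁, r P₁ = Q ∧ D P₁ ≠ 0 := by
    by_contra hcon
    push Not at hcon
    have h' := h
    rw [mapDomain_apply_eq_sum] at h'
    have : ∑ P ∈ D.support, (if r P = Q then D P else 0) = 0 :=
      Finset.sum_eq_zero fun P _ => by
        split_ifs with hr
        · exact hcon P hr
        · rfl
    omega
  obtain ⟨P₁, hrP₁, hne⟩ := hex
  have hpos : 0 < D P₁ := lt_of_le_of_ne (hD P₁ hrP₁) (Ne.symm hne)
  obtain ⟨h1, h2⟩ := unique_of_mapDomain_eq_one r D hD h hrP₁ hpos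
  exact ⟨P₁, hrP₁, h1, h2⟩

namespace Reduction

variable (Φ : Reduction K F k Fk)

theorem ρ_ne_zero_of_isUnit {y : Φ.R} (hy : IsUnit y) : Φ.ρ y ≠ 0 :=
  (hy.map Φ.ρ).ne_zero

theorem ρ_eq_zero_iff {y : Φ.R} : Φ.ρ y = 0 ↔ ¬ IsUnit y :=
  ⟨fun h hu => Φ.ρ_ne_zero_of_isUnit hu h, fun h => by
    by_contra hne; exact h (Φ.isUnit_of_ρ_ne_zero y hne)⟩

theorem coe_ne_zero {y : Φ.R} (hy : Φ.ρ y ≠ 0) : (y : F) ≠ 0 := by
  intro h
  apply hy
  have : y = 0 := Subtype.ext h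
  rw [this, map_zero]

/-- The inverse of a unit of `R`, as an element of `R`. -/
theorem inv_mem {y : Φ.R} (hy : Φ.ρ y ≠ 0) : (y : F)⁻¹ ∈ Φ.R := by
  obtain ⟨u, hu⟩ := Φ.isUnit_of_ρ_ne_zero y hy
  have h1 : ((u⁻¹ : Φ.Rˣ) : Φ.R) * y = 1 := by rw [← hu]; exact Units.inv_mul u
  have h2 : (((u⁻¹ : Φ.Rˣ) : Φ.R) : F) * (y : F) = 1 := by
    have := congrArg (Subtype.val) h1
    simpa using this
  have h3 : (y : F)⁻¹ = (((u⁻¹ : Φ.Rˣ) : Φ.R) : F) := by
    rw [eq_comm, ← mul_eq_one_iff_eq_inv₀ (Φ.coe_ne_zero hy)]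
    exact h2
  rw [h3]
  exact Subtype.mem _

theorem mul_inv_eq_one {y : Φ.R} (hy : Φ.ρ y ≠ 0) :
    y * ⟨(y : F)⁻¹, Φ.inv_mem hy⟩ = (1 : Φ.R) :=
  Subtype.ext (by simpa using mul_inv_cancel₀ (Φ.coe_ne_zero hy))

theorem ρ_inv {y : Φ.R} (hy : Φ.ρ y ≠ 0) : Φ.ρ ⟨(y : F)⁻¹, Φ.inv_mem hy⟩ = (Φ.ρ y)⁻¹ := by
  have h1 : Φ.ρ y * Φ.ρ ⟨(y : F)⁻¹, Φ.inv_mem hy⟩ = 1 := by
    rw [← map_mul, Φ.mul_inv_eq_one hy, map_one]
  exact eq_inv_of_mul_eq_one_right h1

/-- An element of `F` not in `R` has its inverse in `R`, reducing to `0`. -/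
theorem inv_mem_of_not_mem {f : F} (hf : f ∉ Φ.R) :
    ∃ h : f⁻¹ ∈ Φ.R, Φ.ρ ⟨f⁻¹, h⟩ = 0 := by
  have h := (Φ.R.mem_or_inv_mem f).resolve_left hf
  refine ⟨h, ?_⟩
  by_contra hne
  apply hf
  have := Φ.inv_mem (y := ⟨f⁻¹, h⟩) hne
  simpa using this

/-! ### Consequences of `red` -/

section Red

variable [HasPrincipalDivisors K F]

/-- The divisor of a nonzero function. -/
theorem exists_div {f : F} (hf : f ≠ 0) :
    ∃ D : Divisor K F, (∀ P, D P = P.ord f) ∧ Divisor.degree D = 0 :=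
  HasPrincipalDivisors.exists_divisor (K := K) f hf

theorem ord_ρ_nonneg {y : Φ.R} (hy : Φ.ρ y ≠ 0) {Q : Place k Fk}
    (h : ∀ P, Φ.r P = Q → 0 ≤ P.ord (y : F)) : 0 ≤ Q.ord (Φ.ρ y) := by
  obtain ⟨D, hD, -⟩ := exists_div (K := K) (Φ.coe_ne_zero hy)
  rw [← Φ.red y hy D hD Q]
  exact mapDomain_nonneg Φ.r D fun P hP => by rw [hD]; exact h P hP

theorem ord_ρ_pos {y : Φ.R} (hy : Φ.ρ y ≠ 0) {Q : Place k Fk}
    (h : ∀ P, Φ.r P = Q → 0 ≤ P.ord (y : F)) {P₀ : Place K F} (hP₀ : Φ.r P₀ = Q)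
    (h₀ : 0 < P₀.ord (y : F)) : 0 < Q.ord (Φ.ρ y) := by
  obtain ⟨D, hD, -⟩ := exists_div (K := K) (Φ.coe_ne_zero hy)
  rw [← Φ.red y hy D hD Q]
  exact mapDomain_pos Φ.r D (fun P hP => by rw [hD]; exact h P hP) hP₀ (by rw [hD]; exact h₀)

theorem ord_unique {y : Φ.R} (hy : Φ.ρ y ≠ 0) {Q : Place k Fk} (hQ : Q.ord (Φ.ρ y) = 1)
    (h : ∀ P, Φ.r P = Q → 0 ≤ P.ord (y : F)) {P₀ : Place K F} (hP₀ : Φ.r P₀ = Q)
    (h₀ : 0 < P₀.ord (y : F)) :
    P₀.ord (y : F) = 1 ∧ ∀ P, Φ.r P = Q → P ≠ P₀ → P.ord (y : F) = 0 := by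
  obtain ⟨D, hD, -⟩ := exists_div (K := K) (Φ.coe_ne_zero hy)
  have h1 := Φ.red y hy D hD Q
  rw [hQ] at h1
  have := unique_of_mapDomain_eq_one Φ.r D (fun P hP => by rw [hD]; exact h P hP) h1 hP₀
    (by rw [hD]; exact h₀)
  simpa only [hD] using this

end Red

end Reduction

end Fermat.Agent.S18.H725
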