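import Fermat.Agent.S18.H725.RedBasic

/-!
# S18 endgame (helper725), part 2: the value lemma
-/

set_option autoImplicit false

noncomputable section

open AlgebraicCurve

namespace Fermat.Agent.S18.H725

open Fermat.Agent.Lib.RR

variable {K F k Fk : Type*} [Field K] [Field F] [Algebra K F] [Field k] [Field Fk] [Algebra k Fk]

/-- `0 ≤ ord (f - g)` if `0 ≤ ord f` and `0 ≤ ord g`. -/
theorem ord_sub_nonneg (v : Place K F) {f g : F} (hf : 0 ≤ v.ord f) (hg : 0 ≤ v.ord g) :
    0 ≤ v.ord (f - g) := by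
  have := sub_mem (mem_of_ord_nonneg v hf) (mem_of_ord_nonneg v hg)
  exact ord_nonneg_of_mem v this

theorem ord_add_nonneg (v : Place K F) {f g : F} (hf : 0 ≤ v.ord f) (hg : 0 ≤ v.ord g) :
    0 ≤ v.ord (f + g) := by
  have := add_mem (mem_of_ord_nonneg v hf) (mem_of_ord_nonneg v hg)
  exact ord_nonneg_of_mem v this

theorem ord_mul_nonneg (v : Place K F) {f g : F} (hf : 0 ≤ v.ord f) (hg : 0 ≤ v.ord g) :
    0 ≤ v.ord (f * g) := by
  have := mul_mem (mem_of_ord_nonneg v hf) (mem_of_ord_nonneg v hg)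
  exact ord_nonneg_of_mem v this

/-- `ord (c * f) = ord f` for a nonzero constant `c`. -/
theorem ord_const_mul (v : Place K F) {c : K} (hc : c ≠ 0) (f : F) :
    v.ord (algebraMap K F c * f) = v.ord f := by
  rcases eq_or_ne f 0 with rfl | hf
  · simp
  rw [v.ord_mul ((map_ne_zero _).mpr hc) hf, ord_algebraMap, zero_add]

theorem ord_mul_const (v : Place K F) {c : K} (hc : c ≠ 0) (f : F) :
    v.ord (f * algebraMap K F c) = v.ord f := by
  rw [mul_comm, ord_const_mul v hc]

/-- the order of a difference with a term of positive order -/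
theorem ord_eq_zero_of_sub_pos (v : Place K F) {f : F} {c : K} (hc : c ≠ 0)
    (h : f - algebraMap K F c = 0 ∨ 0 < v.ord (f - algebraMap K F c)) : v.ord f = 0 := by
  rcases h with h | h
  · rw [sub_eq_zero] at h
    rw [h, ord_algebraMap]
  · have hne : f - algebraMap K F c ≠ 0 := ne_zero_of_ord_ne_zero v (ne_of_gt h)
    have hcne : algebraMap K F c ≠ 0 := (map_ne_zero _).mpr hc
    have := ord_add_eq_of_lt v hcne hne (by rw [ord_algebraMap]; exact h)
    rw [add_sub_cancel, ord_algebraMap] at this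
    exact this

namespace Reduction

variable (Φ : Reduction K F k Fk) [HasPrincipalDivisors K F]

/-- **Value lemma.** If `x ∈ R` has no pole over `Q` and `x - c` vanishes at a place `P` over
`Q`, then `c ∈ R` and `ρ x - ρ c` vanishes at `Q`. -/
theorem value_lemma {x : Φ.R} {Q : Place k Fk} {P : Place K F} (hP : Φ.r P = Q)
    (hreg : ∀ P', Φ.r P' = Q → 0 ≤ P'.ord (x : F)) {c : K}
    (hc : (x : F) - algebraMap K F c = 0 ∨ 0 < P.ord ((x : F) - algebraMap K F c)) :
    ∃ h : algebraMap K F c ∈ Φ.R,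
      Φ.ρ x - Φ.ρ ⟨algebraMap K F c, h⟩ = 0 ∨
        0 < Q.ord (Φ.ρ x - Φ.ρ ⟨algebraMap K F c, h⟩) := by
  by_cases hmem : algebraMap K F c ∈ Φ.R
  · refine ⟨hmem, ?_⟩
    set y : Φ.R := x - ⟨algebraMap K F c, hmem⟩ with hy
    have hycoe : (y : F) = (x : F) - algebraMap K F c := rfl
    rw [← map_sub]
    by_cases hρ : Φ.ρ y = 0
    · exact Or.inl hρ
    · right
      have hyne : (y : F) ≠ 0 := Φ.coe_ne_zero hρ
      refine Φ.ord_ρ_pos hρ (fun P' hP' => ?_) hP ?_
      · rw [hycoe]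
        exact ord_sub_nonneg P' (hreg P' hP') (by rw [ord_algebraMap])
      · rw [hycoe]
        rw [hycoe] at hyne
        exact hc.resolve_left hyne
  · exfalso
    obtain ⟨hinv, hρinv⟩ := Φ.inv_mem_of_not_mem hmem
    have hc0 : c ≠ 0 := by
      rintro rfl
      apply hmem
      rw [map_zero]
      exact zero_mem _
    set ci : Φ.R := ⟨(algebraMap K F c)⁻¹, hinv⟩ with hci
    set y : Φ.R := 1 - ci * x with hy
    have hycoe : (y : F) = 1 - (algebraMap K F c)⁻¹ * (x : F) := rfl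
    have hρy : Φ.ρ y = 1 := by
      rw [hy, map_sub, map_one, map_mul, hρinv, zero_mul, sub_zero]
    have hρy0 : Φ.ρ y ≠ 0 := by rw [hρy]; exact one_ne_zero
    have hyne : (y : F) ≠ 0 := Φ.coe_ne_zero hρy0
    have hcF : algebraMap K F c ≠ 0 := (map_ne_zero _).mpr hc0
    have hfac : (y : F) = -((algebraMap K F c)⁻¹ * ((x : F) - algebraMap K F c)) := by
      rw [hycoe]; field_simp; ring
    have hxc : (x : F) - algebraMap K F c ≠ 0 := by
      intro h0
      rw [hfac, h0, mul_zero, neg_zero] at hyne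
      exact hyne rfl
    have hpos : 0 < P.ord (y : F) := by
      rw [hfac, ord_neg, ← map_inv₀, ord_const_mul P (inv_ne_zero hc0)]
      exact hc.resolve_left hxc
    have hnn : ∀ P', Φ.r P' = Q → 0 ≤ P'.ord (y : F) := by
      intro P' hP'
      rw [hycoe]
      refine ord_sub_nonneg P' (by rw [P'.ord_one]) ?_
      rw [← map_inv₀, ord_const_mul P' (inv_ne_zero hc0)]
      exact hreg P' hP'
    have := Φ.ord_ρ_pos hρy0 hnn hP hpos
    rw [hρy, Q.ord_one] at this
    exact lt_irrefl _ this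

/-- **Value lemma, vanishing form.** If moreover `ρ x` vanishes at `Q`, then `ρ c = 0`. -/
theorem value_lemma_zero {x : Φ.R} {Q : Place k Fk} {P : Place K F} (hP : Φ.r P = Q)
    (hreg : ∀ P', Φ.r P' = Q → 0 ≤ P'.ord (x : F)) (hQ : 0 < Q.ord (Φ.ρ x)) {c : K}
    (hc : (x : F) - algebraMap K F c = 0 ∨ 0 < P.ord ((x : F) - algebraMap K F c)) :
    ∃ h : algebraMap K F c ∈ Φ.R, Φ.ρ ⟨algebraMap K F c, h⟩ = 0 := by
  obtain ⟨h, hval⟩ := Φ.value_lemma hP hreg hc
  refine ⟨h, ?_⟩
  obtain ⟨c', hc'⟩ := Φ.const c h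
  by_contra hne
  have hc'0 : c' ≠ 0 := by
    rintro rfl
    rw [map_zero] at hc'
    exact hne hc'
  rw [hc'] at hval
  have hρx : Φ.ρ x ≠ 0 := ne_zero_of_ord_ne_zero Q (ne_of_gt hQ)
  have hord : Q.ord (Φ.ρ x - algebraMap k Fk c') = 0 := by
    have hcne : -algebraMap k Fk c' ≠ 0 := neg_ne_zero.mpr ((map_ne_zero _).mpr hc'0)
    have := ord_add_eq_of_lt Q hcne hρx (by rw [ord_neg, ord_algebraMap]; exact hQ)
    rw [ord_neg, ord_algebraMap, add_comm, ← sub_eq_add_neg] at this
    exact this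
  rcases hval with h0 | hpos
  · rw [sub_eq_zero] at h0
    rw [h0, ord_algebraMap] at hQ
    exact lt_irrefl _ hQ
  · omega

end Reduction

end Fermat.Agent.S18.H725
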