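import Fermat.Agent.S18.H725.Lift
import Fermat.Agent.S18.H725.Value
import Fermat.Agent.Lib.RR.Riemann

/-!
# S18 Route H (helper725): two-chart data for a constant reduction

`Charts Φ`: a coordinate `x` (a unit of the valuation ring `Φ.R`) and two subrings
`Bfin`, `Binf ⊆ Φ.R` of `F` ("functions on the model, regular on `{x ≠ ∞}` resp. `{x ≠ 0}`") with

* `reg_fin`, `reg_inf`   : regularity on the generic fibre;
* `surj_fin`, `surj_inf` : every function on the special fibre regular on `{x̄ ≠ ∞}`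
  (resp. `{x̄ ≠ 0}`) is the reduction of an element of `Bfin` (resp. `Binf`)
  (= normality of the special fibre + surjectivity of reduction);
* `qep`                  : saturation (`b ∈ Bfin`, `ρ b = 0` ⟹ `b ∈ 𝔪 Bfin`);
* `h1van`                : `Bfin[1/x] = Bfin + x ^ N₀ Binf` (finite generation of the Čech `H¹`);
* `deg_eq`               : `x` and `x̄` have the same degree.

Main result of this file: `Charts.exists_lift` (integral Riemann–Roch surjectivity for the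
multiples of the polar divisor of `x`) and `Charts.ell_le`.
-/

set_option autoImplicit false

noncomputable section

open AlgebraicCurve

namespace Fermat.Agent.S18.H725

open Fermat.Agent.Lib.RR

variable {K F k Fk : Type*} [Field K] [Field F] [Algebra K F] [Field k] [Field Fk] [Algebra k Fk]

/-- Two-chart data for a constant reduction `Φ`. -/
structure Charts (Φ : Reduction K F k Fk) where
  /-- the coordinate -/
  x : Φ.R
  xinv_mem : ((x : Φ.R) : F)⁻¹ ∈ Φ.R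
  /-- the chart `{x ≠ ∞}` -/
  Bfin : Subring F
  /-- the chart `{x ≠ 0}` -/
  Binf : Subring F
  fin_le : ∀ b, b ∈ Bfin → b ∈ Φ.R
  inf_le : ∀ b, b ∈ Binf → b ∈ Φ.R
  const_fin : ∀ c : K, algebraMap K F c ∈ Φ.R → algebraMap K F c ∈ Bfin
  const_inf : ∀ c : K, algebraMap K F c ∈ Φ.R → algebraMap K F c ∈ Binf
  x_fin : ((x : Φ.R) : F) ∈ Bfin
  x_inf : ((x : Φ.R) : F)⁻¹ ∈ Binf
  reg_fin : ∀ b, b ∈ Bfin → ∀ P : Place K F, 0 ≤ P.ord ((x : Φ.R) : F) → 0 ≤ P.ord b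
  reg_inf : ∀ b, b ∈ Binf → ∀ P : Place K F, P.ord ((x : Φ.R) : F) < 0 → 0 ≤ P.ord b
  loc_inf : ∀ b, b ∈ Binf → ∃ j : ℕ, ((x : Φ.R) : F) ^ j * b ∈ Bfin
  h1van : ∃ N₀ : ℕ, ∀ β : F, (∃ j : ℕ, ((x : Φ.R) : F) ^ j * β ∈ Bfin) →
    ∃ β₁, β₁ ∈ Bfin ∧ ∃ β₂, β₂ ∈ Binf ∧ β = β₁ + ((x : Φ.R) : F) ^ N₀ * β₂
  qep : ∀ b : Φ.R, (b : F) ∈ Bfin → Φ.ρ b = 0 →
    ∃ (c : K) (hc : algebraMap K F c ∈ Φ.R) (b₁ : F), b₁ ∈ Bfin ∧
      Φ.ρ ⟨algebraMap K F c, hc⟩ = 0 ∧ (b : F) = algebraMap K F c * b₁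
  surj_fin : ∀ ψ : Fk, (∀ Q : Place k Fk, 0 ≤ Q.ord (Φ.ρ x) → 0 ≤ Q.ord ψ) →
    ∃ b : Φ.R, (b : F) ∈ Bfin ∧ Φ.ρ b = ψ
  surj_inf : ∀ ψ : Fk, (∀ Q : Place k Fk, Q.ord (Φ.ρ x) ≤ 0 → 0 ≤ Q.ord ψ) →
    ∃ b : Φ.R, (b : F) ∈ Binf ∧ Φ.ρ b = ψ
  /-- the polar divisor of `x` -/
  Dinf : Divisor K F
  Dinf_apply : ∀ P : Place K F, Dinf P = max 0 (-(P.ord ((x : Φ.R) : F)))
  /-- the polar divisor of `x̄` -/
  Dinfk : Divisor k Fk
  Dinfk_apply : ∀ Q : Place k Fk, Dinfk Q = max 0 (-(Q.ord (Φ.ρ x)))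
  deg_eq : Divisor.degree Dinf = Divisor.degree Dinfk
  deg_pos : 0 < Divisor.degree Dinfk

namespace Charts

variable {Φ : Reduction K F k Fk} (C : Charts Φ)

/-- the inverse of the coordinate, as an element of `R` -/
def xinv : Φ.R := ⟨((C.x : Φ.R) : F)⁻¹, C.xinv_mem⟩

theorem ρx_mul_ρxinv : Φ.ρ C.x * Φ.ρ C.xinv = 1 := by
  rw [← map_mul]
  have h : C.x * C.xinv = 1 := by
    apply Subtype.ext
    show ((C.x : Φ.R) : F) * ((C.x : Φ.R) : F)⁻¹ = 1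
    have hx0 : ((C.x : Φ.R) : F) ≠ 0 := by
      intro h0
      have h1 : C.xinv = 0 := Subtype.ext (by show ((C.x : Φ.R) : F)⁻¹ = 0; rw [h0, inv_zero])
      have hfin := C.deg_pos
      -- if `x = 0` then `x̄ = 0` has no poles
      have h2 : C.x = 0 := Subtype.ext h0
      have h3 : C.Dinfk = 0 := by
        ext Q
        rw [C.Dinfk_apply, h2, map_zero, Place.ord_zero]
        simp
      rw [h3, map_zero] at hfin
      exact lt_irrefl _ hfin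
    exact mul_inv_cancel₀ hx0
  rw [h, map_one]

theorem ρx_ne_zero : Φ.ρ C.x ≠ 0 := left_ne_zero_of_mul_eq_one C.ρx_mul_ρxinv

theorem x_ne_zero : ((C.x : Φ.R) : F) ≠ 0 := Φ.coe_ne_zero C.ρx_ne_zero

theorem ρxinv : Φ.ρ C.xinv = (Φ.ρ C.x)⁻¹ :=
  eq_inv_of_mul_eq_one_right C.ρx_mul_ρxinv

/-- `Bfin[1/x] = Bfin + x ^ N Binf` for all `N ≥ N₀`. -/
theorem h1van_ge : ∃ N₀ : ℕ, ∀ N : ℕ, N₀ ≤ N → ∀ β : F,
    (∃ j : ℕ, ((C.x : Φ.R) : F) ^ j * β ∈ C.Bfin) →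
    ∃ β₁, β₁ ∈ C.Bfin ∧ ∃ β₂, β₂ ∈ C.Binf ∧ β = β₁ + ((C.x : Φ.R) : F) ^ N * β₂ := by
  obtain ⟨N₀, hN₀⟩ := C.h1van
  refine ⟨N₀, fun N hN β hβ => ?_⟩
  obtain ⟨β₁, hβ₁, β₂, hβ₂, h⟩ := hN₀ β hβ
  obtain ⟨d, rfl⟩ := Nat.exists_eq_add_of_le hN
  refine ⟨β₁, hβ₁, (((C.x : Φ.R) : F)⁻¹) ^ d * β₂,
    C.Binf.mul_mem (C.Binf.pow_mem C.x_inf d) hβ₂, ?_⟩
  rw [h, pow_add, mul_assoc, ← mul_assoc (((C.x : Φ.R) : F) ^ d), ← mul_pow,
    mul_inv_cancel₀ C.x_ne_zero, one_pow, one_mul]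

/-- **Integral Riemann–Roch surjectivity** for the multiples of the polar divisor of `x`. -/
theorem exists_lift : ∃ N₀ : ℕ, ∀ N : ℕ, N₀ ≤ N → ∀ ψ : Fk,
    ψ ∈ riemannRochSpace ((N : ℤ) • C.Dinfk) →
    ∃ f : Φ.R, (f : F) ∈ riemannRochSpace ((N : ℤ) • C.Dinf) ∧ Φ.ρ f = ψ := by
  obtain ⟨N₀, hN₀⟩ := C.h1van_ge
  refine ⟨N₀, fun N hN ψ hψ => ?_⟩
  rcases eq_or_ne ψ 0 with rfl | hψ0
  · exact ⟨0, by simp, map_zero _⟩
  have hord : ∀ Q : Place k Fk, -((N : ℤ) * max 0 (-(Q.ord (Φ.ρ C.x)))) ≤ Q.ord ψ := by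
    intro Q
    have := (mem_L_iff.mp hψ Q).resolve_left hψ0
    rwa [Finsupp.smul_apply, smul_eq_mul, C.Dinfk_apply] at this
  have hxb := C.ρx_ne_zero
  -- the finite chart
  obtain ⟨b, hb, hρb⟩ := C.surj_fin ψ (fun Q hQ => by
    have := hord Q
    rw [max_eq_left (by omega), mul_zero, neg_zero] at this
    exact this)
  -- the chart at infinity
  have hψ' : ψ * ((Φ.ρ C.x)⁻¹) ^ N ≠ 0 := mul_ne_zero hψ0 (pow_ne_zero _ (inv_ne_zero hxb))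
  obtain ⟨b', hb', hρb'⟩ := C.surj_inf (ψ * ((Φ.ρ C.x)⁻¹) ^ N) (fun Q hQ => by
    have := hord Q
    rw [max_eq_right (by omega)] at this
    rw [Q.ord_mul hψ0 (pow_ne_zero _ (inv_ne_zero hxb)), ord_pow, Q.ord_inv]
    nlinarith)
  -- the difference reduces to zero
  set d : Φ.R := b - C.x ^ N * b' with hd
  have hρd : Φ.ρ d = 0 := by
    rw [hd, map_sub, map_mul, map_pow, hρb, hρb', mul_comm ψ, ← mul_assoc, ← mul_pow,
      mul_inv_cancel₀ hxb, one_pow, one_mul, sub_self]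
  obtain ⟨j, hj⟩ := C.loc_inf _ hb'
  have hxjd : ((C.x ^ j * d : Φ.R) : F) ∈ C.Bfin := by
    have h1 : ((C.x ^ j * d : Φ.R) : F)
        = ((C.x : Φ.R) : F) ^ j * (b : F) - ((C.x : Φ.R) : F) ^ N * (((C.x : Φ.R) : F) ^ j * b') := by
      show ((C.x : Φ.R) : F) ^ j * ((b : F) - ((C.x : Φ.R) : F) ^ N * (b' : F)) = _
      ring
    rw [h1]
    exact C.Bfin.sub_mem (C.Bfin.mul_mem (C.Bfin.pow_mem C.x_fin j) hb)
      (C.Bfin.mul_mem (C.Bfin.pow_mem C.x_fin N) hj)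
  obtain ⟨c, hc, b₁, hb₁, hρc, hcb₁⟩ := C.qep (C.x ^ j * d) hxjd (by rw [map_mul, hρd, mul_zero])
  have hcb₁' : ((C.x : Φ.R) : F) ^ j * ((b : F) - ((C.x : Φ.R) : F) ^ N * (b' : F))
      = algebraMap K F c * b₁ := hcb₁
  -- `β = b₁ / x ^ j`
  obtain ⟨β₁, hβ₁, β₂, hβ₂, hβ⟩ := hN₀ N hN ((((C.x : Φ.R) : F)⁻¹) ^ j * b₁) ⟨j, by
    rw [← mul_assoc, ← mul_pow, mul_inv_cancel₀ C.x_ne_zero, one_pow, one_mul]; exact hb₁⟩
  have hcF : algebraMap K F c ∈ C.Bfin := C.const_fin c hc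
  have hcI : algebraMap K F c ∈ C.Binf := C.const_inf c hc
  -- the lift
  have hfmem : (b : F) - algebraMap K F c * β₁ ∈ C.Bfin :=
    C.Bfin.sub_mem hb (C.Bfin.mul_mem hcF hβ₁)
  have hfR : (b : F) - algebraMap K F c * β₁ ∈ Φ.R := C.fin_le _ hfmem
  have hβ₁R : β₁ ∈ Φ.R := C.fin_le _ hβ₁
  have hfeq : (b : F) - algebraMap K F c * β₁
      = ((C.x : Φ.R) : F) ^ N * ((b' : F) + algebraMap K F c * β₂) := by
    have hxj : ((C.x : Φ.R) : F) ^ j ≠ 0 := pow_ne_zero _ C.x_ne_zero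
    have h1 : (b : F) - ((C.x : Φ.R) : F) ^ N * (b' : F)
        = algebraMap K F c * ((((C.x : Φ.R) : F)⁻¹) ^ j * b₁) := by
      have h2 : algebraMap K F c * ((((C.x : Φ.R) : F)⁻¹) ^ j * b₁)
          = (((C.x : Φ.R) : F)⁻¹) ^ j * (algebraMap K F c * b₁) := by ring
      rw [h2, ← hcb₁', ← mul_assoc, ← mul_pow, inv_mul_cancel₀ C.x_ne_zero, one_pow, one_mul]
    rw [hβ] at h1
    linear_combination h1
  refine ⟨⟨(b : F) - algebraMap K F c * β₁, hfR⟩, ?_, ?_⟩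
  · -- membership in `L(N D_∞)`
    rw [mem_L_iff]
    intro P
    by_cases hf0 : (b : F) - algebraMap K F c * β₁ = 0
    · exact Or.inl hf0
    right
    show -(((N : ℤ) • C.Dinf) P) ≤ P.ord ((b : F) - algebraMap K F c * β₁)
    rw [Finsupp.smul_apply, smul_eq_mul, C.Dinf_apply]
    rcases le_or_gt 0 (P.ord ((C.x : Φ.R) : F)) with hP | hP
    · rw [max_eq_left (by omega), mul_zero, neg_zero]
      exact C.reg_fin _ hfmem P hP
    · rw [max_eq_right (by omega)]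
      have hne : (b' : F) + algebraMap K F c * β₂ ≠ 0 := by
        intro h0
        rw [hfeq, h0, mul_zero] at hf0
        exact hf0 rfl
      rw [hfeq, P.ord_mul (pow_ne_zero _ C.x_ne_zero) hne, ord_pow]
      have := C.reg_inf _ (C.Binf.add_mem hb' (C.Binf.mul_mem hcI hβ₂)) P hP
      nlinarith
  · -- the reduction
    have h1 : (⟨(b : F) - algebraMap K F c * β₁, hfR⟩ : Φ.R)
        = b - ⟨algebraMap K F c, hc⟩ * ⟨β₁, hβ₁R⟩ := Subtype.ext rfl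
    rw [h1, map_sub, map_mul, hρc, zero_mul, sub_zero, hρb]

end Charts

end Fermat.Agent.S18.H725
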