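import Fermat.Agent.S18.H725.Charts

/-!
# S18 Route H (helper725): regular local coordinates from two-chart data

* `Charts.pole_of_pole`  : poles of `x` reduce to poles of `x̄`;
* `Charts.exists_uniformizer` : every place of `Fk` at which `x̄` is regular has a uniformizer
  which is regular at all such places (Riemann's theorem on `Fk`);
* `Charts.local_coord` : regular local coordinates at all places of `Fk` at which `x̄` is regular.
-/

set_option autoImplicit false

noncomputable section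

open AlgebraicCurve

namespace Fermat.Agent.S18.H725

open Fermat.Agent.Lib.RR

variable {K F k Fk : Type*} [Field K] [Field F] [Algebra K F] [Field k] [Field Fk] [Algebra k Fk]

/-- Pushforward of divisors preserves the degree when all places have degree one. -/
theorem degree_mapDomain [FF1 K F] [FF1 k Fk] (r : Place K F → Place k Fk) (D : Divisor K F) :
    Divisor.degree (Finsupp.mapDomain r D) = Divisor.degree D := by
  classical
  induction D using Finsupp.induction_linear with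
  | zero => simp
  | add D₁ D₂ h₁ h₂ => rw [Finsupp.mapDomain_add, map_add, map_add, h₁, h₂]
  | single P n =>
    rw [Finsupp.mapDomain_single, Divisor.degree_single, Divisor.degree_single,
      deg_eq_one, deg_eq_one]

/-- An effective divisor of degree zero is zero. -/
theorem eq_zero_of_nonneg_of_degree_eq_zero [FF1 k Fk] {E : Divisor k Fk} (hE : ∀ Q, 0 ≤ E Q)
    (hdeg : Divisor.degree E = 0) : E = 0 := by
  classical
  rw [degree_eq_sum] at hdeg
  have h1 := (Finset.sum_eq_zero_iff_of_nonneg (fun v _ =>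
    mul_nonneg (hE v) (Int.natCast_nonneg _))).mp hdeg
  ext Q
  by_cases hQ : Q ∈ E.support
  · have := h1 Q hQ
    rw [deg_eq_one, Nat.cast_one, mul_one] at this
    rw [this]; rfl
  · rw [Finsupp.notMem_support_iff.mp hQ]; rfl

namespace Charts

variable {Φ : Reduction K F k Fk} (C : Charts Φ)

/-- The polar divisor of `x` reduces to the polar divisor of `x̄`. -/
theorem mapDomain_Dinf [FF1 K F] [FF1 k Fk] :
    Finsupp.mapDomain Φ.r C.Dinf = C.Dinfk := by
  classical
  set Dx : Divisor K F := divOf (K := K) ((C.x : Φ.R) : F) C.x_ne_zero with hDx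
  have hred := Φ.red C.x C.ρx_ne_zero Dx (fun P => divOf_apply _ _ P)
  have hZnn : ∀ Q, 0 ≤ Finsupp.mapDomain Φ.r (Dx + C.Dinf) Q := fun Q =>
    mapDomain_nonneg Φ.r _ (fun P _ => by
      rw [Finsupp.add_apply, hDx, divOf_apply, C.Dinf_apply]
      rcases le_or_gt 0 (P.ord ((C.x : Φ.R) : F)) with h | h
      · rw [max_eq_left (by omega)]; omega
      · rw [max_eq_right (by omega)]; omega)
  have hAnn : ∀ Q, 0 ≤ Finsupp.mapDomain Φ.r C.Dinf Q := fun Q =>
    mapDomain_nonneg Φ.r _ (fun P _ => by rw [C.Dinf_apply]; exact le_max_left _ _)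
  have hZA : ∀ Q, Finsupp.mapDomain Φ.r (Dx + C.Dinf) Q
      = Q.ord (Φ.ρ C.x) + Finsupp.mapDomain Φ.r C.Dinf Q := fun Q => by
    rw [Finsupp.mapDomain_add, Finsupp.add_apply, hred Q]
  -- `Dinfk ≤ r_* Dinf`
  have hle : ∀ Q, 0 ≤ (Finsupp.mapDomain Φ.r C.Dinf - C.Dinfk) Q := by
    intro Q
    rw [Finsupp.sub_apply, C.Dinfk_apply]
    have h1 := hZnn Q
    rw [hZA] at h1
    have h2 := hAnn Q
    rcases le_or_gt 0 (Q.ord (Φ.ρ C.x)) with h | h
    · rw [max_eq_left (by omega)]; omega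
    · rw [max_eq_right (by omega)]; omega
  have hdeg : Divisor.degree (Finsupp.mapDomain Φ.r C.Dinf - C.Dinfk) = 0 := by
    rw [map_sub, degree_mapDomain, C.deg_eq, sub_self]
  have := eq_zero_of_nonneg_of_degree_eq_zero hle hdeg
  exact sub_eq_zero.mp this

/-- **Poles reduce to poles.** -/
theorem pole_of_pole [FF1 K F] [FF1 k Fk] {P : Place K F}
    (hP : P.ord ((C.x : Φ.R) : F) < 0) : (Φ.r P).ord (Φ.ρ C.x) < 0 := by
  have h1 : 0 < Finsupp.mapDomain Φ.r C.Dinf (Φ.r P) :=
    mapDomain_pos Φ.r C.Dinf (fun P' _ => by rw [C.Dinf_apply]; exact le_max_left _ _) rfl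
      (by rw [C.Dinf_apply, max_eq_right (by omega)]; omega)
  rw [C.mapDomain_Dinf, C.Dinfk_apply] at h1
  by_contra hcon
  rw [max_eq_left (by omega)] at h1
  exact lt_irrefl _ h1

/-- Every place of `Fk` at which `x̄` is regular has a uniformizer which is regular at all
places at which `x̄` is regular. -/
theorem exists_uniformizer [FF1 k Fk] {Q : Place k Fk} (hQ : 0 ≤ Q.ord (Φ.ρ C.x)) :
    ∃ ψ : Fk, Q.ord ψ = 1 ∧ ∀ Q' : Place k Fk, 0 ≤ Q'.ord (Φ.ρ C.x) → 0 ≤ Q'.ord ψ := by
  classical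
  obtain ⟨c, hc⟩ := exists_degree_bound (K := k) (F := Fk)
  set n : ℤ := Divisor.degree C.Dinfk with hn
  have hnpos : 0 < n := C.deg_pos
  set N : ℕ := (c + 2).toNat with hNdef
  have hN : c + 2 ≤ (N : ℤ) := Int.self_le_toNat _
  set D₂ : Divisor k Fk := (N : ℤ) • C.Dinfk - (2 : ℤ) • prim Q with hD₂
  have hdeg₂ : Divisor.degree D₂ = (N : ℤ) * n - 2 := by
    rw [hD₂, map_sub, map_zsmul, map_zsmul, degree_prim', smul_eq_mul, smul_eq_mul, mul_one]
  have hdeg₁ : Divisor.degree (D₂ + prim Q) = (N : ℤ) * n - 1 := by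
    rw [map_add, hdeg₂, degree_prim']; ring
  have hNn : (N : ℤ) ≤ (N : ℤ) * n := by nlinarith
  have h2 := hc D₂ (by rw [hdeg₂]; omega)
  have h1 := hc (D₂ + prim Q) (by rw [hdeg₁]; omega)
  rw [hdeg₂] at h2
  rw [hdeg₁] at h1
  have hlt : ell D₂ < ell (D₂ + prim Q) := by
    have : (ell D₂ : ℤ) < (ell (D₂ + prim Q) : ℤ) := by omega
    exact_mod_cast this
  have hnle : ¬ riemannRochSpace (D₂ + prim Q) ≤ riemannRochSpace D₂ := by
    intro hle
    have := Submodule.finrank_mono hle
    change ell (D₂ + prim Q) ≤ ell D₂ at this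
    omega
  obtain ⟨ψ, hψ, hψ'⟩ := SetLike.not_le_iff_exists.mp hnle
  have hψ0 : ψ ≠ 0 := fun h => hψ' (h ▸ Submodule.zero_mem _)
  have hDinfQ : C.Dinfk Q = 0 := by rw [C.Dinfk_apply, max_eq_left (by omega)]
  have hD₂Q : D₂ Q = -2 := by
    rw [hD₂, Finsupp.sub_apply, Finsupp.smul_apply, Finsupp.smul_apply, hDinfQ, prim_apply_self]
    simp
  have hord : ∀ Q' : Place k Fk, -((D₂ + prim Q) Q') ≤ Q'.ord ψ := fun Q' =>
    (mem_L_iff.mp hψ Q').resolve_left hψ0
  have hQord : Q.ord ψ = 1 := by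
    have h3 := hord Q
    rw [Finsupp.add_apply, hD₂Q, prim_apply_self] at h3
    by_contra hne
    apply hψ'
    rw [mem_L_iff]
    intro w
    right
    by_cases hw : w = Q
    · subst hw
      rw [hD₂Q]; omega
    · have h4 := hord w
      rw [Finsupp.add_apply, prim_apply_of_ne hw, add_zero] at h4
      exact h4
  refine ⟨ψ, hQord, fun Q' hQ' => ?_⟩
  by_cases hw : Q' = Q
  · subst hw; rw [hQord]; exact zero_le_one
  · have h4 := hord Q'
    rw [Finsupp.add_apply, prim_apply_of_ne hw, add_zero, hD₂, Finsupp.sub_apply,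
      Finsupp.smul_apply, Finsupp.smul_apply, prim_apply_of_ne hw, C.Dinfk_apply,
      max_eq_left (by omega)] at h4
    simpa using h4

/-- **Regular local coordinates** at all places of `Fk` at which `x̄` is regular. -/
theorem local_coord [FF1 K F] [FF1 k Fk] :
    ∀ Q : Place k Fk, Q ∉ C.Dinfk.support →
      ∃ t : Φ.R, Q.ord (Φ.ρ t) = 1 ∧ ∀ P, Φ.r P = Q → 0 ≤ P.ord ((t : Φ.R) : F) := by
  intro Q hQ
  have hQ0 : C.Dinfk Q = 0 := Finsupp.notMem_support_iff.mp hQ
  have hQreg : 0 ≤ Q.ord (Φ.ρ C.x) := by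
    rw [C.Dinfk_apply] at hQ0
    by_contra hcon
    rw [max_eq_right (by omega)] at hQ0
    omega
  obtain ⟨ψ, hψ, hψreg⟩ := C.exists_uniformizer hQreg
  obtain ⟨b, hb, hρb⟩ := C.surj_fin ψ hψreg
  refine ⟨b, by rw [hρb]; exact hψ, fun P hP => ?_⟩
  refine C.reg_fin _ hb P ?_
  by_contra hcon
  have := C.pole_of_pole (P := P) (by omega)
  rw [hP] at this
  omega

end Charts

end Fermat.Agent.S18.H725
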