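import Fermat.Agent.S18.H725.Charts

/-!
# S18 Route H (helper725): the genus inequality from two-chart data

`Charts.genus_le : genusR K F ≤ genusR k Fk` — good reduction in the sense of Riemann's theorem,
from integral Riemann–Roch surjectivity for the multiples of the polar divisor of the coordinate
(`Charts.exists_lift`) and lifting of linear independence.
No differentials, no duality, no Riemann–Hurwitz.
-/

set_option autoImplicit false

noncomputable section

open AlgebraicCurve

namespace Fermat.Agent.S18.H725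

open Fermat.Agent.Lib.RR

variable {K F k Fk : Type*} [Field K] [Field F] [Algebra K F] [Field k] [Field Fk] [Algebra k Fk]

namespace Charts

variable {Φ : Reduction K F k Fk} (C : Charts Φ)

/-- `ℓ_k(N D̄_∞) ≤ ℓ_K(N D_∞)` for `N` large. -/
theorem ell_le [FF1 K F] [FF1 k Fk] : ∃ N₀ : ℕ, ∀ N : ℕ, N₀ ≤ N →
    ell ((N : ℤ) • C.Dinfk) ≤ ell ((N : ℤ) • C.Dinf) := by
  classical
  obtain ⟨N₀, hN₀⟩ := C.exists_lift
  refine ⟨N₀, fun N hN => ?_⟩
  set Dk : Divisor k Fk := (N : ℤ) • C.Dinfk with hDk
  set D : Divisor K F := (N : ℤ) • C.Dinf with hD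
  let bs := Module.finBasis k (riemannRochSpace Dk)
  choose f hf hρ using fun i => hN₀ N hN ((bs i : riemannRochSpace Dk) : Fk) (bs i).2
  have hind : LinearIndependent k (fun i => Φ.ρ (f i)) := by
    have h1 : LinearIndependent k ((riemannRochSpace Dk).subtype ∘ bs) :=
      bs.linearIndependent.map' _ (Submodule.ker_subtype _)
    have h2 : (fun i => Φ.ρ (f i)) = (riemannRochSpace Dk).subtype ∘ bs := by
      funext i
      rw [hρ i]
      rfl
    rw [h2]
    exact h1
  have hlift := Φ.linearIndependent_lift f hind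
  have hv : LinearIndependent K (fun i => (⟨(f i : F), hf i⟩ : riemannRochSpace D)) := by
    refine LinearIndependent.of_comp (riemannRochSpace D).subtype ?_
    exact hlift
  have hcard := hv.fintype_card_le_finrank
  rw [Fintype.card_fin] at hcard
  exact hcard

/-- **Genus inequality** (good reduction in the sense of Riemann's theorem). -/
theorem genus_le (C : Charts Φ) [FF1 K F] [FF1 k Fk] : genusR K F ≤ genusR k Fk := by
  obtain ⟨N₀, hN₀⟩ := C.ell_le
  obtain ⟨c, hc⟩ := exists_degree_bound (K := K) (F := F)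
  set n : ℤ := Divisor.degree C.Dinfk with hn
  have hnpos : 0 < n := C.deg_pos
  set N : ℕ := max N₀ c.toNat with hNdef
  have hN1 : N₀ ≤ N := le_max_left _ _
  have hN2 : c ≤ (N : ℤ) := by
    have h1 : c.toNat ≤ N := le_max_right _ _
    have h2 : c ≤ (c.toNat : ℤ) := Int.self_le_toNat c
    have h3 : (c.toNat : ℤ) ≤ (N : ℤ) := by exact_mod_cast h1
    omega
  have hdegK : Divisor.degree ((N : ℤ) • C.Dinf) = (N : ℤ) * n := by
    rw [map_zsmul, smul_eq_mul, C.deg_eq]
  have hdegk : Divisor.degree ((N : ℤ) • C.Dinfk) = (N : ℤ) * n := by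
    rw [map_zsmul, smul_eq_mul]
  have hNn : c ≤ (N : ℤ) * n := by nlinarith
  have h1 := hc ((N : ℤ) • C.Dinf) (by rw [hdegK]; exact hNn)
  have h2 := riemann_inequality (K := k) (F := Fk) ((N : ℤ) • C.Dinfk)
  have h3 : (ell ((N : ℤ) • C.Dinfk) : ℤ) ≤ (ell ((N : ℤ) • C.Dinf) : ℤ) := by
    exact_mod_cast hN₀ N hN1
  rw [hdegK] at h1
  rw [hdegk] at h2
  have h4 : (genusR K F : ℤ) ≤ (genusR k Fk : ℤ) := by omega
  exact_mod_cast h4

end Charts

end Fermat.Agent.S18.H725
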