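import Fermat.Agent.S18.H725.Endgame
import Fermat.Agent.S18.H725.Genus
import Fermat.Agent.S18.H725.Coord

/-!
# S18 Route H (helper725): the endgame from two-chart data

For a constant reduction `Φ : Reduction K F k Fk` of function fields satisfying `FF1`
(Riemann's theorem), with infinitely many places on `Fk`, and two-chart data `C : Charts Φ`
(normal special fibre, saturation, finiteness of the Čech `H¹`, equal degrees):

* `Charts.genus_le`   : `genusR K F ≤ genusR k Fk`                         (file `Genus.lean`)
* `Charts.local_coord`: regular local coordinates off the poles of `x̄`    (file `Coord.lean`)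
* `Charts.endgame`    : torsion injectivity — `deg D = 0`, `m D` principal (`m` invertible in
                        `k`), `r_* D` principal ⟹ `D` principal;
* `Charts.kummer`     : `ρ u = 1`, `m ∣ div u` ⟹ `u = c * y ^ m`.
-/

set_option autoImplicit false

noncomputable section

open AlgebraicCurve

namespace Fermat.Agent.S18.H725

open Fermat.Agent.Lib.RR

variable {K F k Fk : Type*} [Field K] [Field F] [Algebra K F] [Field k] [Field Fk] [Algebra k Fk]

namespace Charts

variable {Φ : Reduction K F k Fk}

/-- **Torsion injectivity from two-chart data.** -/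
theorem endgame (C : Charts Φ) [FF1 K F] [FF1 k Fk] [Infinite (Place k Fk)]
    {m : ℕ} (hm : (m : k) ≠ 0) {D : Divisor K F} (hD : Divisor.degree D = 0)
    (hmD : Divisor.IsPrincipal ((m : ℤ) • D))
    (hrD : Divisor.IsPrincipal (Finsupp.mapDomain Φ.r D)) : Divisor.IsPrincipal D :=
  Φ.endgame C.genus_le C.Dinfk.support C.local_coord hm hD hmD hrD

/-- **Kummer form from two-chart data.** -/
theorem kummer (C : Charts Φ) [FF1 K F] [FF1 k Fk] [Infinite (Place k Fk)]
    {m : ℕ} (hm : (m : k) ≠ 0) {u : Φ.R} (hρu : Φ.ρ u = 1)
    (hdiv : ∀ P : Place K F, (m : ℤ) ∣ P.ord ((u : Φ.R) : F)) :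
    ∃ (c : K) (y : F), c ≠ 0 ∧ y ≠ 0 ∧ ((u : Φ.R) : F) = algebraMap K F c * y ^ m :=
  Φ.kummer C.genus_le C.Dinfk.support C.local_coord hm hρu hdiv

end Charts

end Fermat.Agent.S18.H725
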