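import Fermat.Agent.Lib.RR.Riemann

/-!
# S18 endgame (helper725), part 6: non-special reduced divisors from Riemann's theorem

For a function field `Fk / k` satisfying `FF1` with infinitely many places, and any finite set `T`
of places, there is a set `S` of `g = genusR k Fk` distinct places outside `T` with
`ℓ(∑_{Q ∈ S} Q) = 1`.  Only Riemann's theorem is used (no duality).
-/

set_option autoImplicit false

noncomputable section

open AlgebraicCurve

namespace Fermat.Agent.S18.H725

open Fermat.Agent.Lib.RR

variable {k Fk : Type*} [Field k] [Field Fk] [Algebra k Fk]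

/-- The reduced divisor of a finite set of places. -/
def sumPrim (S : Finset (Place k Fk)) : Divisor k Fk := ∑ Q ∈ S, prim Q

theorem sumPrim_apply [DecidableEq (Place k Fk)] (S : Finset (Place k Fk)) (Q : Place k Fk) :
    sumPrim S Q = if Q ∈ S then 1 else 0 := by
  rw [sumPrim, Finsupp.finsetSum_apply]
  simp only [prim, Finsupp.single_apply]
  rw [Finset.sum_ite_eq' S Q]

theorem sumPrim_apply_of_mem {S : Finset (Place k Fk)} {Q : Place k Fk} (h : Q ∈ S) :
    sumPrim S Q = 1 := by
  classical
  rw [sumPrim_apply, if_pos h]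

theorem sumPrim_apply_of_not_mem {S : Finset (Place k Fk)} {Q : Place k Fk} (h : Q ∉ S) :
    sumPrim S Q = 0 := by
  classical
  rw [sumPrim_apply, if_neg h]

theorem sumPrim_nonneg (S : Finset (Place k Fk)) : 0 ≤ sumPrim S := by
  classical
  rw [Finsupp.le_def]
  intro Q
  rw [sumPrim_apply]
  split_ifs <;> simp

theorem sumPrim_insert [DecidableEq (Place k Fk)] {S : Finset (Place k Fk)} {Q : Place k Fk}
    (hQ : Q ∉ S) : sumPrim (insert Q S) = sumPrim S + prim Q := by
  rw [sumPrim, Finset.sum_insert hQ, add_comm]; rfl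

theorem sumPrim_empty : sumPrim (∅ : Finset (Place k Fk)) = 0 := by
  rw [sumPrim, Finset.sum_empty]

theorem degree_sumPrim [FF1 k Fk] (S : Finset (Place k Fk)) :
    Divisor.degree (sumPrim S) = S.card := by
  rw [sumPrim, map_sum]
  simp

/-- A witness of strict growth `L(D) ⊊ L(D + Q)` is also one for `D₁ ≥ D` with
`D₁ Q = D Q`. -/
theorem ell_add_prim_of_witness [FF1 k Fk] {D D₁ : Divisor k Fk} {Q : Place k Fk}
    (hle : D ≤ D₁) (hQ : D₁ Q = D Q) {f : Fk} (hf : f ∈ riemannRochSpace (D + prim Q))
    (hf' : f ∉ riemannRochSpace D) : ell D₁ + 1 ≤ ell (D₁ + prim Q) := by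
  have hf0 : f ≠ 0 := fun h => hf' (h ▸ Submodule.zero_mem _)
  have h1 : f ∈ riemannRochSpace (D₁ + prim Q) := L_mono (add_le_add_left hle _) hf
  have h2 : f ∉ riemannRochSpace D₁ := by
    intro hmem
    apply hf'
    rw [mem_L_iff]
    intro v
    right
    by_cases hv : v = Q
    · subst hv
      have := (mem_L_iff.mp hmem v).resolve_left hf0
      rw [hQ] at this
      exact this
    · have := (mem_L_iff.mp hf v).resolve_left hf0
      simpa [prim_apply_of_ne hv] using this
  have hlt : riemannRochSpace D₁ < riemannRochSpace (D₁ + prim Q) := by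
    refine lt_of_le_of_ne (L_mono (le_add_of_nonneg_right ?_)) ?_
    · rw [Finsupp.le_def]
      intro v
      by_cases hv : v = Q
      · subst hv; simp
      · simp [prim_apply_of_ne hv]
    · intro heq
      rw [← heq] at h1
      exact h2 h1
  have := Submodule.finrank_lt_finrank_of_lt hlt
  exact this

/-- If each place of `U` is a non-gap of `D`, then `ℓ(D + ∑_{Q ∈ U} Q) ≥ ℓ(D) + #U`. -/
theorem ell_add_sumPrim_ge [FF1 k Fk] (D : Divisor k Fk) (U : Finset (Place k Fk))
    (hU : ∀ Q, Q ∈ U → ell D + 1 ≤ ell (D + prim Q)) : ell D + U.card ≤ ell (D + sumPrim U) := by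
  classical
  induction U using Finset.induction_on with
  | empty => simp [sumPrim_empty]
  | insert Q U hQU ih =>
    have ih' := ih (fun Q' hQ' => hU Q' (Finset.mem_insert_of_mem hQ'))
    have hQ := hU Q (Finset.mem_insert_self Q U)
    have hnle : ¬ riemannRochSpace (D + prim Q) ≤ riemannRochSpace D := by
      intro hle
      have := Submodule.finrank_mono hle
      change ell (D + prim Q) ≤ ell D at this
      omega
    obtain ⟨f, hf, hf'⟩ := SetLike.not_le_iff_exists.mp hnle
    have h1 := ell_add_prim_of_witness (D := D) (D₁ := D + sumPrim U) (Q := Q)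
      (le_add_of_nonneg_right (sumPrim_nonneg U))
      (by simp [sumPrim_apply_of_not_mem hQU]) hf hf'
    rw [sumPrim_insert hQU, Finset.card_insert_of_notMem hQU,
      show D + (sumPrim U + prim Q) = D + sumPrim U + prim Q from (add_assoc _ _ _).symm]
    omega

/-- For a special divisor `D` (`ℓ(D) > deg D + 1 - g`), all but finitely many places are gaps. -/
theorem finite_nongap [FF1 k Fk] (D : Divisor k Fk)
    (hD : Divisor.degree D + 1 - (genusR k Fk : ℤ) < ell D) :
    {Q : Place k Fk | ell D + 1 ≤ ell (D + prim Q)}.Finite := by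
  classical
  by_contra hinf
  have hinf' : {Q : Place k Fk | ell D + 1 ≤ ell (D + prim Q)}.Infinite := hinf
  obtain ⟨c, hc⟩ := exists_degree_bound (K := k) (F := Fk)
  obtain ⟨U, hUsub, hUcard⟩ := hinf'.exists_subset_card_eq (c - Divisor.degree D).toNat
  have h1 := ell_add_sumPrim_ge D U (fun Q hQ => hUsub hQ)
  have hdeg : Divisor.degree (D + sumPrim U) = Divisor.degree D + U.card := by
    rw [map_add, degree_sumPrim]
  have h2 := hc (D + sumPrim U) (by
    rw [hdeg, hUcard]
    have := Int.self_le_toNat (c - Divisor.degree D)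
    omega)
  rw [hdeg] at h2
  have h3 : ((ell D + U.card : ℕ) : ℤ) ≤ (ell (D + sumPrim U) : ℤ) := by exact_mod_cast h1
  push_cast at h3
  omega

/-- **Existence of non-special reduced divisors** of every degree `n ≤ g`, avoiding `T`. -/
theorem exists_nonspecial_le [FF1 k Fk] [Infinite (Place k Fk)] (T : Finset (Place k Fk)) :
    ∀ n : ℕ, n ≤ genusR k Fk →
      ∃ S : Finset (Place k Fk), Disjoint S T ∧ S.card = n ∧ ell (sumPrim S) = 1 := by
  classical
  intro n
  induction n with
  | zero =>
    intro _
    exact ⟨∅, Finset.disjoint_empty_left T, rfl, by rw [sumPrim_empty, ell_zero]⟩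
  | succ n ih =>
    intro hn
    obtain ⟨S, hST, hScard, hSell⟩ := ih (by omega)
    have hfin := finite_nongap (sumPrim S) (by
      rw [degree_sumPrim, hScard, hSell]
      have : (n : ℤ) + 1 ≤ (genusR k Fk : ℤ) := by exact_mod_cast hn
      push_cast
      omega)
    obtain ⟨Q, hQ⟩ := Infinite.exists_notMem_finset (hfin.toFinset ∪ S ∪ T)
    rw [Finset.mem_union, Finset.mem_union, not_or, not_or, Set.Finite.mem_toFinset] at hQ
    obtain ⟨⟨hQB', hQS⟩, hQT⟩ := hQ
    have hQB : ¬ ell (sumPrim S) + 1 ≤ ell (sumPrim S + prim Q) := hQB'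
    refine ⟨insert Q S, ?_, ?_, ?_⟩
    · rw [Finset.disjoint_insert_left]
      exact ⟨hQT, hST⟩
    · rw [Finset.card_insert_of_notMem hQS, hScard]
    · rw [sumPrim_insert hQS]
      have h1 : ell (sumPrim S) ≤ ell (sumPrim S + prim Q) := by
        refine ell_mono (le_add_of_nonneg_right ?_)
        rw [Finsupp.le_def]
        intro v
        by_cases hv : v = Q
        · subst hv; simp
        · simp [prim_apply_of_ne hv]
      omega

theorem exists_nonspecial [FF1 k Fk] [Infinite (Place k Fk)] (T : Finset (Place k Fk)) :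
    ∃ S : Finset (Place k Fk), Disjoint S T ∧ S.card = genusR k Fk ∧ ell (sumPrim S) = 1 :=
  exists_nonspecial_le T _ le_rfl

/-- A function with at most simple poles along a non-special reduced divisor is constant. -/
theorem const_of_ell_sumPrim_eq_one [FF1 k Fk] {S : Finset (Place k Fk)}
    (hS : ell (sumPrim S) = 1) {ψ : Fk} (hout : ∀ Q, Q ∉ S → 0 ≤ Q.ord ψ)
    (hin : ∀ Q, Q ∈ S → -1 ≤ Q.ord ψ) : ∃ c : k, ψ = algebraMap k Fk c := by
  have hmem : ψ ∈ riemannRochSpace (sumPrim S) := by
    rw [mem_L_iff]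
    intro v
    right
    by_cases hv : v ∈ S
    · rw [sumPrim_apply_of_mem hv]; exact hin v hv
    · rw [sumPrim_apply_of_not_mem hv]; simpa using hout v hv
  have hle : riemannRochSpace (0 : Divisor k Fk) ≤ riemannRochSpace (sumPrim S) :=
    L_mono (sumPrim_nonneg S)
  have heq : riemannRochSpace (0 : Divisor k Fk) = riemannRochSpace (sumPrim S) := by
    refine Submodule.eq_of_le_of_finrank_eq hle ?_
    have h0 : ell (0 : Divisor k Fk) = 1 := ell_zero
    change ell (0 : Divisor k Fk) = ell (sumPrim S)
    rw [h0, hS]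
  rw [← heq, L_zero] at hmem
  obtain ⟨c, hc⟩ := hmem
  exact ⟨c, hc.symm⟩

end Fermat.Agent.S18.H725
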