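import Fermat.Agent.S18.H725.Torsion
import Fermat.Agent.S18.H725.NonSpecial

/-!
# S18 endgame (helper725), part 7: the abstract endgame

Setting: `Φ : Reduction K F k Fk` (a "constant reduction" of the function field `F / K` to
`Fk / k`: valuation ring `Φ.R ⊆ F` with residue map `Φ.ρ : Φ.R →+* Fk`, value group that of the
constants, and a specialisation map `Φ.r` on places with `r_* div(y) = div(ρ y)` for units `y`),
both function fields satisfying `FF1` (Riemann's theorem available), infinitely many places of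
`Fk`, the genus inequality `genusR K F ≤ genusR k Fk` (good reduction), and regular local
coordinates at all but finitely many places of `Fk`.

* `Reduction.endgame` : a degree-zero divisor `D` of `F` with `m D` principal (`m` invertible
  in `k`) and `r_* D` principal is principal.
* `Reduction.kummer` : a unit `u` of `Φ.R` with `ρ u = 1` whose divisor is divisible by `m`
  is a constant times an `m`-th power.
-/

set_option autoImplicit false

noncomputable section

open AlgebraicCurve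

namespace Fermat.Agent.S18.H725

open Fermat.Agent.Lib.RR

variable {K F k Fk : Type*} [Field K] [Field F] [Algebra K F] [Field k] [Field Fk] [Algebra k Fk]

namespace Reduction

variable (Φ : Reduction K F k Fk)

/-- The specialisation map is surjective. -/
theorem exists_lift [HasPrincipalDivisors K F] (Q : Place k Fk) : ∃ P, Φ.r P = Q := by
  classical
  obtain ⟨ψ, hψ⟩ := exists_ord_eq_one Q
  have hψ0 : ψ ≠ 0 := ne_zero_of_ord_ne_zero Q (by rw [hψ]; exact one_ne_zero)
  obtain ⟨y, hy⟩ := Φ.ρ_surj ψ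
  have hρy : Φ.ρ y ≠ 0 := by rw [hy]; exact hψ0
  obtain ⟨Dy, hDy, -⟩ := exists_div (K := K) (Φ.coe_ne_zero hρy)
  have hred := Φ.red y hρy Dy hDy Q
  rw [hy, hψ] at hred
  by_contra hcon
  push Not at hcon
  have h0 : Finsupp.mapDomain Φ.r Dy Q = 0 := by
    rw [mapDomain_apply_eq_sum]
    exact Finset.sum_eq_zero fun P _ => if_neg (hcon P)
  omega

/-- **Abstract endgame: torsion injectivity.** -/
theorem endgame [FF1 K F] [FF1 k Fk] [Infinite (Place k Fk)]
    (hg : genusR K F ≤ genusR k Fk) (T : Finset (Place k Fk))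
    (hL : ∀ Q, Q ∉ T → ∃ x : Φ.R, Q.ord (Φ.ρ x) = 1 ∧ ∀ P, Φ.r P = Q → 0 ≤ P.ord (x : F))
    {m : ℕ} (hm : (m : k) ≠ 0) {D : Divisor K F} (hD : Divisor.degree D = 0)
    (hmD : Divisor.IsPrincipal ((m : ℤ) • D))
    (hrD : Divisor.IsPrincipal (Finsupp.mapDomain Φ.r D)) : Divisor.IsPrincipal D := by
  classical
  obtain ⟨S, hST, hScard, hSell⟩ := exists_nonspecial (k := k) (Fk := Fk) T
  choose lift hlift using Φ.exists_lift
  set E₀ : Divisor K F := ∑ Q ∈ S, prim (lift Q) with hE₀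
  have hrE₀ : Finsupp.mapDomain Φ.r E₀ = sumPrim S := by
    rw [hE₀, Finsupp.mapDomain_finsetSum, sumPrim]
    refine Finset.sum_congr rfl fun Q _ => ?_
    rw [prim, Finsupp.mapDomain_single, hlift, prim]
  have hE₀nn : ∀ P, 0 ≤ E₀ P := by
    intro P
    rw [hE₀, Finsupp.finsetSum_apply]
    refine Finset.sum_nonneg fun Q _ => ?_
    rw [prim, Finsupp.single_apply]
    split_ifs <;> simp
  have hE₀deg : Divisor.degree E₀ = (genusR k Fk : ℤ) := by
    rw [hE₀, map_sum]
    simp [hScard]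
  obtain ⟨Qs, hQs⟩ := Infinite.exists_notMem_finset S
  refine Φ.principal_of_torsion (fun P => deg_eq_one P) S
    (fun ψ _ hout hin => const_of_ell_sumPrim_eq_one hSell hout hin)
    (fun Q hQ => hL Q (Finset.disjoint_left.mp hST hQ))
    (Pstar := lift Qs) (by rw [hlift]; exact hQs) hE₀nn
    (fun Q hQ => by rw [hrE₀, sumPrim_apply_of_mem hQ])
    (fun Q hQ => by rw [hrE₀, sumPrim_apply_of_not_mem hQ])
    ?_ hm hD hmD hrD
  -- Riemann's inequality on `F`
  intro D' hD'
  have h1 := riemann_inequality (K := K) (F := F) (D' + E₀)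
  rw [map_add, hD', hE₀deg, zero_add] at h1
  have hgz : (genusR K F : ℤ) ≤ (genusR k Fk : ℤ) := by exact_mod_cast hg
  have hpos : 0 < ell (D' + E₀) := by
    have : (0 : ℤ) < (ell (D' + E₀) : ℤ) := by omega
    exact_mod_cast this
  have hne : riemannRochSpace (D' + E₀) ≠ ⊥ := by
    intro hbot
    unfold ell at hpos
    rw [hbot, finrank_bot] at hpos
    exact lt_irrefl _ hpos
  obtain ⟨φ, hφmem, hφ0⟩ := (Submodule.ne_bot_iff _).mp hne
  refine ⟨φ, hφ0, fun P => ?_⟩
  have := (mem_L_iff.mp hφmem P).resolve_left hφ0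
  simp only [Finsupp.add_apply] at this
  omega

/-- **Abstract endgame, Kummer form.** A unit `u ≡ 1` of `Φ.R` whose divisor is divisible by `m`
(`m` invertible in `k`) is a constant times an `m`-th power. -/
theorem kummer [FF1 K F] [FF1 k Fk] [Infinite (Place k Fk)]
    (hg : genusR K F ≤ genusR k Fk) (T : Finset (Place k Fk))
    (hL : ∀ Q, Q ∉ T → ∃ x : Φ.R, Q.ord (Φ.ρ x) = 1 ∧ ∀ P, Φ.r P = Q → 0 ≤ P.ord (x : F))
    {m : ℕ} (hm : (m : k) ≠ 0) {u : Φ.R} (hρu : Φ.ρ u = 1)
    (hdiv : ∀ P : Place K F, (m : ℤ) ∣ P.ord (u : F)) :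
    ∃ (c : K) (y : F), c ≠ 0 ∧ y ≠ 0 ∧ (u : F) = algebraMap K F c * y ^ m := by
  classical
  have hm0 : m ≠ 0 := by
    rintro rfl
    exact hm (by simp)
  have hmz : (m : ℤ) ≠ 0 := by exact_mod_cast hm0
  have hρu0 : Φ.ρ u ≠ 0 := by rw [hρu]; exact one_ne_zero
  have huF : (u : F) ≠ 0 := Φ.coe_ne_zero hρu0
  obtain ⟨Du, hDu, hDudeg⟩ := exists_div (K := K) huF
  have hred := Φ.red u hρu0 Du hDu
  -- `D = Du / m`
  set D : Divisor K F := Finsupp.mapRange (fun n : ℤ => n / (m : ℤ)) (by simp) Du with hDdef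
  have hDapp : ∀ P, (m : ℤ) * D P = Du P := by
    intro P
    rw [hDdef, Finsupp.mapRange_apply, hDu]
    exact Int.mul_ediv_cancel' (hdiv P)
  have hmD : (m : ℤ) • D = Du := by
    ext P
    rw [Finsupp.smul_apply, smul_eq_mul, hDapp]
  have hDdeg : Divisor.degree D = 0 := by
    have h1 : (m : ℤ) * Divisor.degree D = 0 := by
      rw [← smul_eq_mul, ← map_zsmul, hmD, hDudeg]
    exact (mul_eq_zero.mp h1).resolve_left hmz
  have hrD : ∀ Q, Finsupp.mapDomain Φ.r D Q = 0 := by
    intro Q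
    have h1 := congrArg (fun X => Finsupp.mapDomain Φ.r X Q) hmD
    simp only [Finsupp.mapDomain_smul, Finsupp.smul_apply, smul_eq_mul] at h1
    rw [hred Q, hρu, Q.ord_one] at h1
    exact (mul_eq_zero.mp h1).resolve_left hmz
  obtain ⟨y, hy0, hy⟩ := Φ.endgame hg T hL hm hDdeg
    ⟨(u : F), huF, fun P => by rw [hmD, hDu]⟩
    ⟨1, one_ne_zero, fun Q => by rw [hrD Q, Q.ord_one]⟩
  -- `u / y ^ m` has trivial divisor, hence is constant
  have hw0 : (u : F) * (y ^ m)⁻¹ ≠ 0 := mul_ne_zero huF (inv_ne_zero (pow_ne_zero _ hy0))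
  have hword : ∀ P : Place K F, P.ord ((u : F) * (y ^ m)⁻¹) = 0 := by
    intro P
    rw [P.ord_mul huF (inv_ne_zero (pow_ne_zero _ hy0)), P.ord_inv, ord_pow, ← hy P, ← hDu,
      ← hDapp]
    ring
  have hwmem : (u : F) * (y ^ m)⁻¹ ∈ riemannRochSpace (0 : Divisor K F) := by
    rw [mem_L_iff]
    intro P
    right
    rw [hword]; simp
  rw [L_zero] at hwmem
  obtain ⟨c, hc⟩ := hwmem
  have hc' : algebraMap K F c = (u : F) * (y ^ m)⁻¹ := hc
  refine ⟨c, y, ?_, hy0, ?_⟩
  · rintro rfl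
    rw [map_zero] at hc'
    exact hw0 hc'.symm
  · rw [hc', mul_assoc, inv_mul_cancel₀ (pow_ne_zero _ hy0), mul_one]

end Reduction

end Fermat.Agent.S18.H725
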