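import Fermat.Agent.S18.H725.RedBasic

/-!
# S18 Route H (helper725): linear independence lifts along a constant reduction

If the reductions `ρ (f i)` of finitely many elements of the valuation ring `Φ.R` are linearly
independent over `k`, then the `f i` are linearly independent over `K`.
-/

set_option autoImplicit false

noncomputable section

open AlgebraicCurve

namespace Fermat.Agent.S18.H725

variable {K F k Fk : Type*} [Field K] [Field F] [Algebra K F] [Field k] [Field Fk] [Algebra k Fk]

namespace Reduction

variable (Φ : Reduction K F k Fk)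

/-- Among finitely many constants, not all zero, one has maximal absolute value. -/
theorem exists_max_const {ι : Type*} [Fintype ι] (g : ι → K) {i₀ : ι} (hi₀ : g i₀ ≠ 0) :
    ∃ j, g j ≠ 0 ∧ ∀ i, algebraMap K F (g i / g j) ∈ Φ.R := by
  classical
  obtain ⟨j, -, hj⟩ := Finset.exists_max_image (Finset.univ : Finset ι)
    (fun i => Φ.R.valuation (algebraMap K F (g i))) ⟨i₀, Finset.mem_univ _⟩
  have hj0 : g j ≠ 0 := by
    intro h0
    have h1 := hj i₀ (Finset.mem_univ _)
    simp only [h0, map_zero] at h1
    have h2 : Φ.R.valuation (algebraMap K F (g i₀)) = 0 := le_antisymm h1 zero_le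
    rw [map_eq_zero, map_eq_zero] at h2
    exact hi₀ h2
  refine ⟨j, hj0, fun i => ?_⟩
  rw [← ValuationSubring.valuation_le_one_iff, map_div₀, map_div₀]
  have hv0 : Φ.R.valuation (algebraMap K F (g j)) ≠ 0 := by
    rw [Ne, map_eq_zero, map_eq_zero]; exact hj0
  rw [div_le_iff₀ (lt_of_le_of_ne zero_le (Ne.symm hv0)), one_mul]
  exact hj i (Finset.mem_univ _)

/-- **Lifting linear independence.** -/
theorem linearIndependent_lift {ι : Type*} [Fintype ι] (f : ι → Φ.R)
    (hind : LinearIndependent k (fun i => Φ.ρ (f i))) :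
    LinearIndependent K (fun i => ((f i : Φ.R) : F)) := by
  classical
  rw [Fintype.linearIndependent_iff]
  intro g hg
  by_contra hcon
  push Not at hcon
  obtain ⟨i₀, hi₀⟩ := hcon
  obtain ⟨j, hj0, hmem⟩ := Φ.exists_max_const g hi₀
  -- the normalised relation in `R`
  have hrel : ∑ i, (⟨algebraMap K F (g i / g j), hmem i⟩ : Φ.R) * f i = 0 := by
    apply Subtype.ext
    show ((∑ i, (⟨algebraMap K F (g i / g j), hmem i⟩ : Φ.R) * f i : Φ.R) : F) = 0
    have h1 : ((∑ i, (⟨algebraMap K F (g i / g j), hmem i⟩ : Φ.R) * f i : Φ.R) : F)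
        = ∑ i, algebraMap K F (g i / g j) * (f i : F) := by
      rw [← ValuationSubring.coe_subtype, map_sum]
      rfl
    rw [h1]
    have h2 : ∀ i, algebraMap K F (g i / g j) * (f i : F)
        = algebraMap K F (g j)⁻¹ * (g i • (f i : F)) := fun i => by
      rw [Algebra.smul_def, ← mul_assoc, ← map_mul, inv_mul_eq_div]
    simp only [h2]
    rw [← Finset.mul_sum, hg, mul_zero]
  have hρ := congrArg Φ.ρ hrel
  rw [map_sum, map_zero] at hρ
  simp only [map_mul] at hρ
  choose c' hc' using fun i => Φ.const (g i / g j) (hmem i)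
  simp only [hc'] at hρ
  have hρ' : ∑ i, c' i • Φ.ρ (f i) = 0 := by
    simpa only [Algebra.smul_def] using hρ
  have h0 := Fintype.linearIndependent_iff.mp hind c' hρ' j
  have h1 := hc' j
  rw [h0, map_zero] at h1
  have h2 : (⟨algebraMap K F (g j / g j), hmem j⟩ : Φ.R) = 1 := by
    apply Subtype.ext
    show algebraMap K F (g j / g j) = 1
    rw [div_self hj0, map_one]
  rw [h2, map_one] at h1
  exact one_ne_zero h1

end Reduction

end Fermat.Agent.S18.H725
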