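import Fermat.Agent.S18.H725.Value

/-!
# S18 endgame (helper725), part 3: the local analysis over one point `Q` of the special fibre
-/

set_option autoImplicit false

noncomputable section

open AlgebraicCurve

namespace Fermat.Agent.S18.H725

open Fermat.Agent.Lib.RR

variable {K F k Fk : Type*} [Field K] [Field F] [Algebra K F] [Field k] [Field Fk] [Algebra k Fk]

namespace Reduction

variable (Φ : Reduction K F k Fk)

/-- If `s • u = v` with `u, v` units of `R` and `s` a constant, then `ρ u` and `ρ v` have the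
same divisor. -/
theorem ord_ρ_eq_of_const_mul {u v : Φ.R} (hu : Φ.ρ u ≠ 0) (hv : Φ.ρ v ≠ 0) {s : K}
    (h : algebraMap K F s * (u : F) = (v : F)) (Q : Place k Fk) :
    Q.ord (Φ.ρ v) = Q.ord (Φ.ρ u) := by
  have hmem : algebraMap K F s ∈ Φ.R := by
    have h1 : algebraMap K F s = (v : F) * (u : F)⁻¹ := by
      rw [← h, mul_assoc, mul_inv_cancel₀ (Φ.coe_ne_zero hu), mul_one]
    rw [h1]
    exact mul_mem v.2 (Φ.inv_mem hu)
  obtain ⟨s', hs'⟩ := Φ.const s hmem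
  have h2 : (⟨algebraMap K F s, hmem⟩ : Φ.R) * u = v := Subtype.ext h
  have h3 : Φ.ρ v = algebraMap k Fk s' * Φ.ρ u := by rw [← h2, map_mul, hs']
  have hs'0 : s' ≠ 0 := by
    rintro rfl
    rw [map_zero, zero_mul] at h3
    exact hv h3
  rw [h3, Q.ord_mul ((map_ne_zero _).mpr hs'0) hu, ord_algebraMap, zero_add]

variable [HasPrincipalDivisors K F]

/-- **Local analysis.** Let `Q` be a place of `Fk` with a local coordinate `x`, let `P₀ ≠ P₁` be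
places of `F` over `Q`, and let `f₁ ∈ R` with `ρ f₁ = 1` have divisor `m (P₁ - P₀)` over `Q`.
If `f₁ - 1 = a • u` with `u` a unit of `R`, then `ρ u` has at most a simple pole at `Q`. -/
theorem local_bound (hdeg : ∀ P : Place K F, P.deg = 1) {Q : Place k Fk}
    {x : Φ.R} (hx : Q.ord (Φ.ρ x) = 1) (hxreg : ∀ P, Φ.r P = Q → 0 ≤ P.ord (x : F))
    {P₀ P₁ : Place K F} (hP₀ : Φ.r P₀ = Q) (hP₁ : Φ.r P₁ = Q) (hne : P₁ ≠ P₀)
    {m : ℕ} (hm : (m : k) ≠ 0)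
    {f₁ : Φ.R} (hρf : Φ.ρ f₁ = 1)
    (hf₀ : P₀.ord (f₁ : F) = -(m : ℤ)) (hf₁ : P₁.ord (f₁ : F) = m)
    (hf : ∀ P, Φ.r P = Q → P ≠ P₀ → P ≠ P₁ → P.ord (f₁ : F) = 0)
    {u : Φ.R} (hu : Φ.ρ u ≠ 0) {a : K} (hau : (f₁ : F) - 1 = algebraMap K F a * (u : F)) :
    -1 ≤ Q.ord (Φ.ρ u) := by
  classical
  have hρx : Φ.ρ x ≠ 0 := ne_zero_of_ord_ne_zero Q (by rw [hx]; exact one_ne_zero)
  have hxpos : 0 < Q.ord (Φ.ρ x) := by rw [hx]; exact one_pos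
  -- the coordinate centred at `P₀`
  obtain ⟨c₀, hc₀⟩ := exists_const_sub P₀ (hdeg P₀) (hxreg P₀ hP₀)
  obtain ⟨hc₀mem, hρc₀⟩ := Φ.value_lemma_zero hP₀ hxreg hxpos hc₀
  set x₀ : Φ.R := x - ⟨algebraMap K F c₀, hc₀mem⟩ with hx₀
  have hx₀coe : (x₀ : F) = (x : F) - algebraMap K F c₀ := rfl
  have hρx₀ : Φ.ρ x₀ = Φ.ρ x := by rw [hx₀, map_sub, hρc₀, sub_zero]
  have hρx₀0 : Φ.ρ x₀ ≠ 0 := by rw [hρx₀]; exact hρx
  have hx₀reg : ∀ P, Φ.r P = Q → 0 ≤ P.ord (x₀ : F) := fun P hP => by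
    rw [hx₀coe]; exact ord_sub_nonneg P (hxreg P hP) (by rw [ord_algebraMap])
  have hx₀pos : 0 < P₀.ord (x₀ : F) := by
    rw [hx₀coe]
    refine hc₀.resolve_left ?_
    rw [← hx₀coe]; exact Φ.coe_ne_zero hρx₀0
  obtain ⟨hx₀P₀, hx₀else⟩ := Φ.ord_unique hρx₀0 (by rw [hρx₀]; exact hx) hx₀reg hP₀ hx₀pos
  -- the coordinate centred at `P₁`
  obtain ⟨c₁, hc₁⟩ := exists_const_sub P₁ (hdeg P₁) (hxreg P₁ hP₁)
  obtain ⟨hc₁mem, hρc₁⟩ := Φ.value_lemma_zero hP₁ hxreg hxpos hc₁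
  set x₁ : Φ.R := x - ⟨algebraMap K F c₁, hc₁mem⟩ with hx₁
  have hx₁coe : (x₁ : F) = (x : F) - algebraMap K F c₁ := rfl
  have hρx₁ : Φ.ρ x₁ = Φ.ρ x := by rw [hx₁, map_sub, hρc₁, sub_zero]
  have hρx₁0 : Φ.ρ x₁ ≠ 0 := by rw [hρx₁]; exact hρx
  have hx₁reg : ∀ P, Φ.r P = Q → 0 ≤ P.ord (x₁ : F) := fun P hP => by
    rw [hx₁coe]; exact ord_sub_nonneg P (hxreg P hP) (by rw [ord_algebraMap])
  have hx₁pos : 0 < P₁.ord (x₁ : F) := by
    rw [hx₁coe]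
    refine hc₁.resolve_left ?_
    rw [← hx₁coe]; exact Φ.coe_ne_zero hρx₁0
  obtain ⟨hx₁P₁, hx₁else⟩ := Φ.ord_unique hρx₁0 (by rw [hρx₁]; exact hx) hx₁reg hP₁ hx₁pos
  -- `T = c₁ - c₀`
  set T : Φ.R := ⟨algebraMap K F c₁, hc₁mem⟩ - ⟨algebraMap K F c₀, hc₀mem⟩ with hT
  have hTcoe : (T : F) = algebraMap K F (c₁ - c₀) := by rw [map_sub]; rfl
  have hρT : Φ.ρ T = 0 := by rw [hT, map_sub, hρc₁, hρc₀, sub_zero]
  have hx₁x₀ : x₁ = x₀ - T := by rw [hx₀, hx₁, hT]; ring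
  have hT0 : T ≠ 0 := by
    intro h0
    rw [h0, sub_zero] at hx₁x₀
    have h1 := hx₁else P₀ hP₀ (Ne.symm hne)
    rw [hx₁x₀, hx₀P₀] at h1
    exact one_ne_zero h1
  have hTF : (T : F) ≠ 0 := fun h => hT0 (Subtype.ext h)
  -- `y = x₁ / x₀`
  set x₀i : Φ.R := ⟨(x₀ : F)⁻¹, Φ.inv_mem hρx₀0⟩ with hx₀i
  have hx₀x₀i : x₀ * x₀i = 1 := Φ.mul_inv_eq_one hρx₀0
  have hρx₀i : Φ.ρ x₀i = (Φ.ρ x)⁻¹ := by rw [hx₀i, Φ.ρ_inv hρx₀0, hρx₀]
  set y : Φ.R := x₁ * x₀i with hy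
  have hρy : Φ.ρ y = 1 := by
    rw [hy, map_mul, hρx₁, hρx₀i, mul_inv_cancel₀ hρx]
  have hρy0 : Φ.ρ y ≠ 0 := by rw [hρy]; exact one_ne_zero
  have hyF : (y : F) ≠ 0 := Φ.coe_ne_zero hρy0
  have hx₀F : (x₀ : F) ≠ 0 := Φ.coe_ne_zero hρx₀0
  have hx₁F : (x₁ : F) ≠ 0 := Φ.coe_ne_zero hρx₁0
  have hyord : ∀ P : Place K F, P.ord (y : F) = P.ord (x₁ : F) - P.ord (x₀ : F) := fun P => by
    have : (y : F) = (x₁ : F) * (x₀ : F)⁻¹ := rfl
    rw [this, P.ord_mul hx₁F (inv_ne_zero hx₀F), P.ord_inv]; ring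
  have hy1 : y - 1 = -(T * x₀i) := by
    rw [hy, hx₁x₀]
    calc (x₀ - T) * x₀i - 1 = x₀ * x₀i - T * x₀i - 1 := by ring
      _ = -(T * x₀i) := by rw [hx₀x₀i]; ring
  -- `F₁ = f₁ / y ^ m`
  set yi : Φ.R := ⟨(y : F)⁻¹, Φ.inv_mem hρy0⟩ with hyi
  have hyyi : y * yi = 1 := Φ.mul_inv_eq_one hρy0
  have hρyi : Φ.ρ yi = 1 := by rw [hyi, Φ.ρ_inv hρy0, hρy, inv_one]
  set F₁ : Φ.R := f₁ * yi ^ m with hF₁
  have hρF₁ : Φ.ρ F₁ = 1 := by rw [hF₁, map_mul, map_pow, hρf, hρyi, one_pow, one_mul]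
  have hρF₁0 : Φ.ρ F₁ ≠ 0 := by rw [hρF₁]; exact one_ne_zero
  have hf₁F : (f₁ : F) ≠ 0 := Φ.coe_ne_zero (by rw [hρf]; exact one_ne_zero)
  have hf₁eq : f₁ = F₁ * y ^ m := by
    rw [hF₁, mul_assoc, ← mul_pow, mul_comm yi y, hyyi, one_pow, mul_one]
  have hF₁ord : ∀ P, Φ.r P = Q → P.ord (F₁ : F) = 0 := by
    intro P hP
    have hcoe : (F₁ : F) = (f₁ : F) * ((y : F)⁻¹) ^ m := rfl
    rw [hcoe, P.ord_mul hf₁F (pow_ne_zero _ (inv_ne_zero hyF)), ord_pow, P.ord_inv, hyord]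
    by_cases h0 : P = P₀
    · subst h0
      rw [hf₀, hx₀P₀, hx₁else P hP (Ne.symm hne)]; ring
    · by_cases h1 : P = P₁
      · subst h1
        rw [hf₁, hx₁P₁, hx₀else P hP h0]; ring
      · rw [hf P hP h0 h1, hx₀else P hP h0, hx₁else P hP h1]; ring
  -- `λ = (y ^ m - 1) / T`
  set lam : Φ.R := -(x₀i * ∑ j ∈ Finset.range m, y ^ j) with hlam
  have hlam1 : y ^ m - 1 = T * lam := by
    rw [← geom_sum_mul, hy1, hlam]; ring
  have hρlam : Φ.ρ lam = -((Φ.ρ x)⁻¹ * algebraMap k Fk (m : k)) := by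
    rw [hlam, map_neg, map_mul, hρx₀i, map_sum]
    simp only [map_pow, hρy, one_pow, Finset.sum_const, Finset.card_range, nsmul_eq_mul, mul_one]
    rw [map_natCast]
  have hmFk : algebraMap k Fk (m : k) ≠ 0 := (map_ne_zero _).mpr hm
  have hρlam0 : Φ.ρ lam ≠ 0 := by
    rw [hρlam]
    exact neg_ne_zero.mpr (mul_ne_zero (inv_ne_zero hρx) hmFk)
  have hlamord : Q.ord (Φ.ρ lam) = -1 := by
    rw [hρlam, ord_neg, Q.ord_mul (inv_ne_zero hρx) hmFk, Q.ord_inv, hx, ord_algebraMap]; ring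
  -- the key identity
  have hkey : f₁ - 1 = T * (lam * F₁) + (F₁ - 1) := by
    calc f₁ - 1 = F₁ * (y ^ m - 1) + (F₁ - 1) := by rw [hf₁eq]; ring
      _ = T * (lam * F₁) + (F₁ - 1) := by rw [hlam1]; ring
  have hkeyF : algebraMap K F a * (u : F) = (T : F) * ((lam : F) * (F₁ : F)) + ((F₁ : F) - 1) := by
    rw [← hau]
    have := congrArg (Subtype.val) hkey
    simpa using this
  by_cases hF1 : F₁ = 1
  · -- `a u = T λ`
    have h1 : algebraMap K F a * (u : F) = algebraMap K F (c₁ - c₀) * (lam : F) := by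
      rw [hkeyF, hF1, hTcoe]; simp
    have ha0 : a ≠ 0 := by
      rintro rfl
      rw [map_zero, zero_mul] at h1
      rw [← hTcoe] at h1
      exact (mul_ne_zero hTF (Φ.coe_ne_zero hρlam0)) h1.symm
    have h2 : algebraMap K F ((c₁ - c₀) / a) * (lam : F) = (u : F) := by
      rw [map_div₀, div_mul_eq_mul_div, ← h1, mul_div_assoc, mul_comm,
        div_mul_cancel₀ _ ((map_ne_zero _).mpr ha0)]
    rw [Φ.ord_ρ_eq_of_const_mul hρlam0 hu h2 Q, hlamord]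
  · -- `F₁ - 1 = a₁ u₁`
    have hd₁ : ((F₁ : F) - 1) ≠ 0 := by
      intro h0
      apply hF1
      exact Subtype.ext (by simpa [sub_eq_zero] using h0)
    obtain ⟨b₁, hb₁0, hu₁mem, hρu₁⟩ := Φ.scale _ hd₁
    set u₁ : Φ.R := ⟨algebraMap K F b₁ * ((F₁ : F) - 1), hu₁mem⟩ with hu₁
    have hu₁coe : (u₁ : F) = algebraMap K F b₁ * ((F₁ : F) - 1) := rfl
    have hu₁reg : 0 ≤ Q.ord (Φ.ρ u₁) := by
      refine Φ.ord_ρ_nonneg hρu₁ fun P hP => ?_
      rw [hu₁coe, ord_const_mul P hb₁0]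
      exact ord_sub_nonneg P (by rw [hF₁ord P hP]) (by rw [P.ord_one])
    have hb₁F : algebraMap K F b₁ ≠ 0 := (map_ne_zero _).mpr hb₁0
    -- multiply the key identity by `b₁`
    have hkey₁ : algebraMap K F (a * b₁) * (u : F) =
        algebraMap K F ((c₁ - c₀) * b₁) * ((lam : F) * (F₁ : F)) + (u₁ : F) := by
      rw [hu₁coe, map_mul, map_mul, ← hTcoe]
      calc algebraMap K F a * algebraMap K F b₁ * (u : F)
          = algebraMap K F b₁ * (algebraMap K F a * (u : F)) := by ring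
        _ = algebraMap K F b₁ * ((T : F) * ((lam : F) * (F₁ : F)) + ((F₁ : F) - 1)) := by
            rw [hkeyF]
        _ = _ := by ring
    set θ : K := (c₁ - c₀) * b₁ with hθ
    have hθ0 : θ ≠ 0 := by
      rw [hθ]
      refine mul_ne_zero ?_ hb₁0
      intro h0
      rw [hTcoe, h0, map_zero] at hTF
      exact hTF rfl
    rcases Φ.R.mem_or_inv_mem (algebraMap K F θ) with hθmem | hθmem
    · -- `|T| ≤ |a₁|`
      obtain ⟨θ', hθ'⟩ := Φ.const θ hθmem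
      set v : Φ.R := ⟨algebraMap K F θ, hθmem⟩ * (lam * F₁) + u₁ with hv
      have hvcoe : (v : F) = algebraMap K F θ * ((lam : F) * (F₁ : F)) + (u₁ : F) := rfl
      have hρv : Φ.ρ v = algebraMap k Fk θ' * Φ.ρ lam + Φ.ρ u₁ := by
        have e1 : Φ.ρ v = Φ.ρ ⟨algebraMap K F θ, hθmem⟩ * (Φ.ρ lam * Φ.ρ F₁) + Φ.ρ u₁ := by
          simp only [hv, map_add, map_mul]
        rw [e1, hθ', hρF₁, mul_one]
      by_cases hv0 : Φ.ρ v = 0
      · exfalso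
        rw [hρv] at hv0
        have h1 : Φ.ρ u₁ = -(algebraMap k Fk θ' * Φ.ρ lam) := eq_neg_of_add_eq_zero_right hv0
        have hθ'0 : θ' ≠ 0 := by
          rintro rfl
          rw [map_zero, zero_mul, neg_zero] at h1
          exact hρu₁ h1
        rw [h1, ord_neg, Q.ord_mul ((map_ne_zero _).mpr hθ'0) hρlam0, ord_algebraMap,
          hlamord] at hu₁reg
        omega
      · have h1 : algebraMap K F (a * b₁) * (u : F) = (v : F) := by rw [hkey₁, hvcoe]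
        rw [← Φ.ord_ρ_eq_of_const_mul hu hv0 h1 Q, hρv]
        have h2 := ord_add_of_le Q (n := -1)
          (f := algebraMap k Fk θ' * Φ.ρ lam) (g := Φ.ρ u₁)
          (by
            by_cases hθ'0 : θ' = 0
            · left; rw [hθ'0, map_zero, zero_mul]
            · right
              rw [Q.ord_mul ((map_ne_zero _).mpr hθ'0) hρlam0, ord_algebraMap, hlamord]; omega)
          (Or.inr (by omega))
        rw [← hρv] at h2 ⊢
        exact h2.resolve_left hv0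
    · -- `|a₁| ≤ |T|`
      rw [← map_inv₀] at hθmem
      obtain ⟨θ', hθ'⟩ := Φ.const θ⁻¹ hθmem
      set v : Φ.R := lam * F₁ + ⟨algebraMap K F θ⁻¹, hθmem⟩ * u₁ with hv
      have hvcoe : (v : F) = (lam : F) * (F₁ : F) + algebraMap K F θ⁻¹ * (u₁ : F) := rfl
      have hρv : Φ.ρ v = Φ.ρ lam + algebraMap k Fk θ' * Φ.ρ u₁ := by
        have e1 : Φ.ρ v = Φ.ρ lam * Φ.ρ F₁ + Φ.ρ ⟨algebraMap K F θ⁻¹, hθmem⟩ * Φ.ρ u₁ := by
          simp only [hv, map_add, map_mul]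
        rw [e1, hθ', hρF₁, mul_one]
      have hvord : Q.ord (Φ.ρ v) = -1 := by
        rw [hρv]
        by_cases hθ'0 : θ' = 0
        · rw [hθ'0, map_zero, zero_mul, add_zero, hlamord]
        · rw [ord_add_eq_of_lt Q hρlam0 (mul_ne_zero ((map_ne_zero _).mpr hθ'0) hρu₁)
            (by rw [Q.ord_mul ((map_ne_zero _).mpr hθ'0) hρu₁, ord_algebraMap, hlamord]; omega),
            hlamord]
      have hv0 : Φ.ρ v ≠ 0 := ne_zero_of_ord_ne_zero Q (by rw [hvord]; omega)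
      have hθF : algebraMap K F θ ≠ 0 := (map_ne_zero _).mpr hθ0
      have h1 : algebraMap K F (a * b₁ * θ⁻¹) * (u : F) = (v : F) := by
        rw [hvcoe, map_mul, mul_assoc, mul_comm (algebraMap K F θ⁻¹), ← mul_assoc, hkey₁, add_mul,
          map_inv₀]
        rw [mul_comm (algebraMap K F θ * ((lam : F) * (F₁ : F))), ← mul_assoc,
          inv_mul_cancel₀ hθF, one_mul, mul_comm (u₁ : F)]
      rw [← Φ.ord_ρ_eq_of_const_mul hu hv0 h1 Q, hvord]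

end Reduction

end Fermat.Agent.S18.H725
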