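import Fermat.Agent.S18.H725.Local

/-!
# S18 endgame (helper725), part 4: the core argument

`Reduction.core`: if `E, E₀ ≥ 0` both reduce to the reduced divisor `∑_{Q ∈ S} Q`, where
`L_k(∑_{Q ∈ S} Q) = k`, and `m (E - E₀)` is principal with `m` invertible in `k`, then `E = E₀`.

`Reduction.principal_of_torsion`: a degree-zero divisor `D` with `m D` principal and `r_* D`
principal is principal.
-/

set_option autoImplicit false

noncomputable section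

open AlgebraicCurve

namespace Fermat.Agent.S18.H725

open Fermat.Agent.Lib.RR

variable {K F k Fk : Type*} [Field K] [Field F] [Algebra K F] [Field k] [Field Fk] [Algebra k Fk]

namespace Reduction

variable (Φ : Reduction K F k Fk) [HasPrincipalDivisors K F]

/-- **Core of the endgame.** -/
theorem core (hdeg : ∀ P : Place K F, P.deg = 1) (S : Finset (Place k Fk))
    (hN : ∀ ψ : Fk, ψ ≠ 0 → (∀ Q, Q ∉ S → 0 ≤ Q.ord ψ) → (∀ Q, Q ∈ S → -1 ≤ Q.ord ψ) →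
      ∃ c : k, ψ = algebraMap k Fk c)
    (hL : ∀ Q, Q ∈ S → ∃ x : Φ.R, Q.ord (Φ.ρ x) = 1 ∧ ∀ P, Φ.r P = Q → 0 ≤ P.ord (x : F))
    {Pstar : Place K F} (hstar : Φ.r Pstar ∉ S)
    {m : ℕ} (hm : (m : k) ≠ 0)
    {E E₀ : Divisor K F} (hE : ∀ P, 0 ≤ E P) (hE₀ : ∀ P, 0 ≤ E₀ P)
    (hrE1 : ∀ Q, Q ∈ S → Finsupp.mapDomain Φ.r E Q = 1)
    (hrE0 : ∀ Q, Q ∉ S → Finsupp.mapDomain Φ.r E Q = 0)
    (hrE₀1 : ∀ Q, Q ∈ S → Finsupp.mapDomain Φ.r E₀ Q = 1)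
    (hrE₀0 : ∀ Q, Q ∉ S → Finsupp.mapDomain Φ.r E₀ Q = 0)
    {f : F} (hf : f ≠ 0) (hdiv : ∀ P : Place K F, P.ord f = (m : ℤ) * (E P - E₀ P)) :
    E = E₀ := by
  classical
  have hm0 : m ≠ 0 := by
    rintro rfl
    exact hm (by simp)
  have hmz : (m : ℤ) ≠ 0 := by exact_mod_cast hm0
  have hEout : ∀ P, Φ.r P ∉ S → E P = 0 := fun P hP =>
    eq_zero_of_mapDomain_eq_zero Φ.r E (fun P' _ => hE P') (hrE0 _ hP) rfl
  have hE₀out : ∀ P, Φ.r P ∉ S → E₀ P = 0 := fun P hP =>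
    eq_zero_of_mapDomain_eq_zero Φ.r E₀ (fun P' _ => hE₀ P') (hrE₀0 _ hP) rfl
  have hrr : ∀ Q, Finsupp.mapDomain Φ.r E Q = Finsupp.mapDomain Φ.r E₀ Q := by
    intro Q
    by_cases hQ : Q ∈ S
    · rw [hrE1 Q hQ, hrE₀1 Q hQ]
    · rw [hrE0 Q hQ, hrE₀0 Q hQ]
  -- normalise `f` to a unit `y₀` of `R`
  obtain ⟨c, hc0, hmem, hρ⟩ := Φ.scale f hf
  set y₀ : Φ.R := ⟨algebraMap K F c * f, hmem⟩ with hy₀
  have hy₀ord : ∀ P : Place K F, P.ord (y₀ : F) = (m : ℤ) * (E P - E₀ P) := fun P => by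
    show P.ord (algebraMap K F c * f) = _
    rw [ord_const_mul P hc0, hdiv]
  -- `ρ y₀` has trivial divisor
  obtain ⟨Dy, hDy, -⟩ := exists_div (K := K) (Φ.coe_ne_zero hρ)
  have hsum : Dy + (m : ℤ) • E₀ = (m : ℤ) • E := by
    ext P
    simp only [Finsupp.add_apply, Finsupp.smul_apply, hDy, hy₀ord, smul_eq_mul]
    ring
  have hred := Φ.red y₀ hρ Dy hDy
  have hρord : ∀ Q : Place k Fk, Q.ord (Φ.ρ y₀) = 0 := by
    intro Q
    have h1 := congrArg (fun D => Finsupp.mapDomain Φ.r D Q) hsum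
    simp only [Finsupp.mapDomain_add, Finsupp.mapDomain_smul, Finsupp.add_apply,
      Finsupp.smul_apply, smul_eq_mul] at h1
    rw [hred Q, hrr Q] at h1
    linarith
  obtain ⟨c₀', hc₀'⟩ := hN (Φ.ρ y₀) hρ (fun Q _ => by rw [hρord])
    (fun Q _ => by rw [hρord]; omega)
  -- normalise at `Pstar`
  have hy₀star : ∀ P, Φ.r P = Φ.r Pstar → P.ord (y₀ : F) = 0 := fun P hP => by
    rw [hy₀ord, hEout P (hP ▸ hstar), hE₀out P (hP ▸ hstar)]; simp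
  obtain ⟨cs, hcs⟩ := exists_const_sub Pstar (hdeg Pstar)
    (f := (y₀ : F)) (by rw [hy₀star Pstar rfl])
  have hcs0 : cs ≠ 0 := by
    rintro rfl
    rw [map_zero, sub_zero] at hcs
    rcases hcs with h | h
    · exact Φ.coe_ne_zero hρ h
    · rw [hy₀star Pstar rfl] at h; exact lt_irrefl _ h
  obtain ⟨hcsmem, hval⟩ := Φ.value_lemma (x := y₀) (Q := Φ.r Pstar) (P := Pstar) rfl
    (fun P hP => by rw [hy₀star P hP]) hcs
  obtain ⟨cs', hcs'⟩ := Φ.const cs hcsmem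
  have hρcs : Φ.ρ ⟨algebraMap K F cs, hcsmem⟩ = Φ.ρ y₀ := by
    rw [hcs', hc₀', ← map_sub] at hval
    rcases hval with h | h
    · rw [hcs', hc₀']
      rw [map_sub] at h
      exact (sub_eq_zero.mp h).symm
    · rw [ord_algebraMap] at h; exact absurd h (lt_irrefl _)
  have hρcs0 : Φ.ρ ⟨algebraMap K F cs, hcsmem⟩ ≠ 0 := by rw [hρcs]; exact hρ
  set csi : Φ.R := ⟨(algebraMap K F cs)⁻¹, Φ.inv_mem hρcs0⟩ with hcsi
  set f₁ : Φ.R := y₀ * csi with hf₁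
  have hρf₁ : Φ.ρ f₁ = 1 := by
    rw [hf₁, map_mul, hcsi, Φ.ρ_inv hρcs0, hρcs, mul_inv_cancel₀ hρ]
  have hf₁coe : (f₁ : F) = algebraMap K F cs⁻¹ * (y₀ : F) := by
    show (y₀ : F) * (algebraMap K F cs)⁻¹ = _
    rw [map_inv₀, mul_comm]
  have hf₁ord : ∀ P : Place K F, P.ord (f₁ : F) = (m : ℤ) * (E P - E₀ P) := fun P => by
    rw [hf₁coe, ord_const_mul P (inv_ne_zero hcs0), hy₀ord]
  have hf₁star : (f₁ : F) - 1 = 0 ∨ 0 < Pstar.ord ((f₁ : F) - 1) := by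
    have h1 : (f₁ : F) - 1 = algebraMap K F cs⁻¹ * ((y₀ : F) - algebraMap K F cs) := by
      rw [hf₁coe, mul_sub, ← map_mul, inv_mul_cancel₀ hcs0, map_one]
    rw [h1]
    rcases hcs with h | h
    · left; rw [h, mul_zero]
    · right; rw [ord_const_mul Pstar (inv_ne_zero hcs0)]; exact h
  by_cases h1 : (f₁ : F) = 1
  · -- `E = E₀`
    ext P
    have h2 := hf₁ord P
    rw [h1, P.ord_one] at h2
    have h3 := (mul_eq_zero.mp h2.symm).resolve_left hmz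
    omega
  · exfalso
    have hd : (f₁ : F) - 1 ≠ 0 := sub_ne_zero.mpr h1
    obtain ⟨b, hb0, humem, hρu⟩ := Φ.scale _ hd
    set u : Φ.R := ⟨algebraMap K F b * ((f₁ : F) - 1), humem⟩ with hu
    have hucoe : (u : F) = algebraMap K F b * ((f₁ : F) - 1) := rfl
    have hau : (f₁ : F) - 1 = algebraMap K F b⁻¹ * (u : F) := by
      rw [hucoe, ← mul_assoc, ← map_mul, inv_mul_cancel₀ hb0, map_one, one_mul]
    -- regularity of `u` where `f₁` has trivial divisor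
    have hureg : ∀ Q, (∀ P, Φ.r P = Q → E P = E₀ P) → ∀ P, Φ.r P = Q → 0 ≤ P.ord (u : F) := by
      intro Q hQ P hP
      rw [hucoe, ord_const_mul P hb0]
      refine ord_sub_nonneg P ?_ (by rw [P.ord_one])
      rw [hf₁ord, hQ P hP]; simp
    have hbound : ∀ Q, (∀ P, Φ.r P = Q → E P = E₀ P) → 0 ≤ Q.ord (Φ.ρ u) := fun Q hQ =>
      Φ.ord_ρ_nonneg hρu (hureg Q hQ)
    have hout : ∀ Q, Q ∉ S → 0 ≤ Q.ord (Φ.ρ u) := fun Q hQ =>
      hbound Q (fun P hP => by rw [hEout P (hP ▸ hQ), hE₀out P (hP ▸ hQ)])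
    have hin : ∀ Q, Q ∈ S → -1 ≤ Q.ord (Φ.ρ u) := by
      intro Q hQ
      obtain ⟨P₁, hrP₁, hE1, hEelse⟩ :=
        exists_unique_of_mapDomain_eq_one Φ.r E (fun P _ => hE P) (hrE1 Q hQ)
      obtain ⟨P₀, hrP₀, hE01, hE₀else⟩ :=
        exists_unique_of_mapDomain_eq_one Φ.r E₀ (fun P _ => hE₀ P) (hrE₀1 Q hQ)
      by_cases hPP : P₁ = P₀
      · have h2 := hbound Q (fun P hP => by
          by_cases hP1 : P = P₁
          · rw [hP1, hE1, hPP, hE01]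
          · rw [hEelse P hP hP1, hE₀else P hP (hPP ▸ hP1)])
        omega
      · obtain ⟨x, hx, hxreg⟩ := hL Q hQ
        have hP₀₁ : P₀ ≠ P₁ := fun h => hPP h.symm
        refine Φ.local_bound hdeg hx hxreg hrP₀ hrP₁ hPP hm hρf₁ ?_ ?_ ?_ hρu hau
        · rw [hf₁ord, hEelse P₀ hrP₀ hP₀₁, hE01]; ring
        · rw [hf₁ord, hE1, hE₀else P₁ hrP₁ hPP]; ring
        · intro P hP hP0 hP1
          rw [hf₁ord, hEelse P hP hP1, hE₀else P hP hP0]; ring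
    obtain ⟨cu, hcu⟩ := hN (Φ.ρ u) hρu hout hin
    have hupos : 0 < (Φ.r Pstar).ord (Φ.ρ u) := by
      refine Φ.ord_ρ_pos hρu (hureg (Φ.r Pstar) (fun P hP => by
        rw [hEout P (hP ▸ hstar), hE₀out P (hP ▸ hstar)])) rfl ?_
      rw [hucoe, ord_const_mul Pstar hb0]
      exact hf₁star.resolve_left hd
    rw [hcu, ord_algebraMap] at hupos
    exact lt_irrefl _ hupos

end Reduction

end Fermat.Agent.S18.H725
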