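import Fermat.Agent.S18.H725.Main

/-!
# S18 endgame (helper725), part 5: torsion divisor classes inject under reduction

`Reduction.principal_of_torsion`: a degree-zero divisor `D` with `m D` principal (`m` invertible
in `k`) and `r_* D` principal is principal.
-/

set_option autoImplicit false

noncomputable section

open AlgebraicCurve

namespace Fermat.Agent.S18.H725

open Fermat.Agent.Lib.RR

variable {K F k Fk : Type*} [Field K] [Field F] [Algebra K F] [Field k] [Field Fk] [Algebra k Fk]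

namespace Reduction

variable (Φ : Reduction K F k Fk) [HasPrincipalDivisors K F]

/-- **Torsion injectivity, abstract form.** -/
theorem principal_of_torsion (hdeg : ∀ P : Place K F, P.deg = 1) (S : Finset (Place k Fk))
    (hN : ∀ ψ : Fk, ψ ≠ 0 → (∀ Q, Q ∉ S → 0 ≤ Q.ord ψ) → (∀ Q, Q ∈ S → -1 ≤ Q.ord ψ) →
      ∃ c : k, ψ = algebraMap k Fk c)
    (hL : ∀ Q, Q ∈ S → ∃ x : Φ.R, Q.ord (Φ.ρ x) = 1 ∧ ∀ P, Φ.r P = Q → 0 ≤ P.ord (x : F))
    {Pstar : Place K F} (hstar : Φ.r Pstar ∉ S)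
    {E₀ : Divisor K F} (hE₀ : ∀ P, 0 ≤ E₀ P)
    (hrE₀1 : ∀ Q, Q ∈ S → Finsupp.mapDomain Φ.r E₀ Q = 1)
    (hrE₀0 : ∀ Q, Q ∉ S → Finsupp.mapDomain Φ.r E₀ Q = 0)
    (hR : ∀ D : Divisor K F, Divisor.degree D = 0 →
      ∃ φ : F, φ ≠ 0 ∧ ∀ P : Place K F, 0 ≤ P.ord φ + D P + E₀ P)
    {m : ℕ} (hm : (m : k) ≠ 0)
    {D : Divisor K F} (hD : Divisor.degree D = 0)
    (hmD : Divisor.IsPrincipal ((m : ℤ) • D))
    (hrD : Divisor.IsPrincipal (Finsupp.mapDomain Φ.r D)) :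
    Divisor.IsPrincipal D := by
  classical
  obtain ⟨f₀, hf₀, hf₀div⟩ := hmD
  obtain ⟨ψ, hψ, hψdiv⟩ := hrD
  -- Step 0: reduce to `r_* D' = 0`
  obtain ⟨y, hy⟩ := Φ.ρ_surj ψ
  have hρy : Φ.ρ y ≠ 0 := by rw [hy]; exact hψ
  have hyF : (y : F) ≠ 0 := Φ.coe_ne_zero hρy
  obtain ⟨Dy, hDy, hDydeg⟩ := exists_div (K := K) hyF
  have hredy := Φ.red y hρy Dy hDy
  set D' : Divisor K F := D - Dy with hD'
  have hD'deg : Divisor.degree D' = 0 := by rw [hD', map_sub, hD, hDydeg, sub_zero]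
  have hrD' : ∀ Q, Finsupp.mapDomain Φ.r D' Q = 0 := by
    intro Q
    have h1 : D' + Dy = D := by rw [hD', sub_add_cancel]
    have h2 := congrArg (fun X => Finsupp.mapDomain Φ.r X Q) h1
    simp only [Finsupp.mapDomain_add, Finsupp.add_apply] at h2
    rw [hredy Q, hψdiv Q, hy] at h2
    linarith
  -- Step 1: make it effective up to `E₀`
  obtain ⟨φ₀, hφ₀, hφ₀E⟩ := hR D' hD'deg
  obtain ⟨c, hc0, hφmem, hρφ⟩ := Φ.scale φ₀ hφ₀
  set φ : Φ.R := ⟨algebraMap K F c * φ₀, hφmem⟩ with hφ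
  have hφF : (φ : F) ≠ 0 := Φ.coe_ne_zero hρφ
  have hφord : ∀ P : Place K F, P.ord (φ : F) = P.ord φ₀ := fun P => ord_const_mul P hc0 φ₀
  obtain ⟨Dφ, hDφ, -⟩ := exists_div (K := K) hφF
  have hredφ := Φ.red φ hρφ Dφ hDφ
  set E : Divisor K F := Dφ + D' + E₀ with hE
  have hEnn : ∀ P, 0 ≤ E P := fun P => by
    rw [hE]
    simp only [Finsupp.add_apply]
    rw [hDφ, hφord]
    exact hφ₀E P
  have hrE : ∀ Q, Finsupp.mapDomain Φ.r E Q = Q.ord (Φ.ρ φ) + Finsupp.mapDomain Φ.r E₀ Q := by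
    intro Q
    rw [hE, Finsupp.mapDomain_add, Finsupp.mapDomain_add]
    simp only [Finsupp.add_apply]
    rw [hredφ Q, hrD' Q, add_zero]
  have hrEnn : ∀ Q, 0 ≤ Finsupp.mapDomain Φ.r E Q := fun Q =>
    mapDomain_nonneg Φ.r E (fun P _ => hEnn P)
  obtain ⟨cφ, hcφ⟩ := hN (Φ.ρ φ) hρφ
    (fun Q hQ => by have := hrEnn Q; rw [hrE, hrE₀0 Q hQ] at this; omega)
    (fun Q hQ => by have := hrEnn Q; rw [hrE, hrE₀1 Q hQ] at this; omega)
  have hρφord : ∀ Q : Place k Fk, Q.ord (Φ.ρ φ) = 0 := fun Q => by rw [hcφ, ord_algebraMap]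
  have hrE1 : ∀ Q, Q ∈ S → Finsupp.mapDomain Φ.r E Q = 1 := fun Q hQ => by
    rw [hrE, hρφord, hrE₀1 Q hQ, zero_add]
  have hrE0 : ∀ Q, Q ∉ S → Finsupp.mapDomain Φ.r E Q = 0 := fun Q hQ => by
    rw [hrE, hρφord, hrE₀0 Q hQ, zero_add]
  -- Step 2: the function with divisor `m (E - E₀)`
  have hquot : (φ : F) * (y : F)⁻¹ ≠ 0 := mul_ne_zero hφF (inv_ne_zero hyF)
  have hfne : f₀ * ((φ : F) * (y : F)⁻¹) ^ m ≠ 0 := mul_ne_zero hf₀ (pow_ne_zero _ hquot)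
  have hford : ∀ P : Place K F,
      P.ord (f₀ * ((φ : F) * (y : F)⁻¹) ^ m) = (m : ℤ) * (E P - E₀ P) := by
    intro P
    rw [P.ord_mul hf₀ (pow_ne_zero _ hquot), ord_pow, P.ord_mul hφF (inv_ne_zero hyF),
      P.ord_inv, ← hf₀div P, hE, hD']
    simp only [Finsupp.add_apply, Finsupp.sub_apply, Finsupp.smul_apply, smul_eq_mul, hDφ, hDy]
    ring
  have hEE := Φ.core hdeg S hN hL hstar hm hEnn hE₀ hrE1 hrE0 hrE₀1 hrE₀0 hfne hford
  -- conclusion: `D = div (y / φ)`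
  refine ⟨(y : F) * (φ : F)⁻¹, mul_ne_zero hyF (inv_ne_zero hφF), fun P => ?_⟩
  rw [P.ord_mul hyF (inv_ne_zero hφF), P.ord_inv, ← hDy, ← hDφ]
  have h1 := congrArg (fun X : Divisor K F => X P) hEE
  simp only [hE, hD', Finsupp.add_apply, Finsupp.sub_apply] at h1
  linarith

end Reduction

end Fermat.Agent.S18.H725
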